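import Mathlib

/-!
Counting lemmas for S51.
-/

set_option autoImplicit false

namespace Fermat.Agent.S51

theorem line_of_card_le {p : ℕ} [Fact p.Prime] {M : Type*} [AddCommGroup M] [Module (ZMod p) M]
    [Finite M] (hcard : Nat.card M ≤ p ^ 2) (N : Submodule (ZMod p) M) (h0 : N ≠ ⊥) (h1 : N ≠ ⊤) :
    ∃ v ∈ N, v ≠ 0 ∧ ∀ w ∈ N, ∃ k : ℕ, k < p ∧ w = k • v := by
  have hp : p.Prime := Fact.out
  have : Module.Finite (ZMod p) M := Module.Finite.of_finite
  have hc : Nat.card M = p ^ Module.finrank (ZMod p) M := by
    have := Module.natCard_eq_pow_finrank (K := ZMod p) (V := M)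
    rwa [Nat.card_zmod] at this
  have hle : Module.finrank (ZMod p) M ≤ 2 := by
    rw [hc] at hcard
    exact (Nat.pow_le_pow_iff_right hp.one_lt).mp hcard
  have hlt : Module.finrank (ZMod p) N < Module.finrank (ZMod p) M := Submodule.finrank_lt h1
  have hne : Module.finrank (ZMod p) N ≠ 0 := by
    intro h
    exact h0 (Submodule.finrank_eq_zero.mp h)
  have hone : Module.finrank (ZMod p) N = 1 := by omega
  obtain ⟨v, hv0, hv⟩ := finrank_eq_one_iff'.mp hone
  refine ⟨v, v.2, fun h => hv0 (Subtype.ext h), fun w hw => ?_⟩
  obtain ⟨c, hc⟩ := hv ⟨w, hw⟩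
  refine ⟨c.val, ZMod.val_lt c, ?_⟩
  have h2 : (c • v : N) = (c.val : ZMod p) • v := by rw [ZMod.natCast_zmod_val]
  have h3 := congrArg Subtype.val hc
  rw [h2, Nat.cast_smul_eq_nsmul] at h3
  simpa using h3.symm


open Polynomial in
/-- the quadratic in `y` satisfied by points with given `x` -/
noncomputable def countQuad {K : Type*} [Field K] (V : WeierstrassCurve.Affine K) (x : K) :
    Polynomial K :=
  X ^ 2 + C (V.a₁ * x + V.a₃) * X - C (x ^ 3 + V.a₂ * x ^ 2 + V.a₄ * x + V.a₆)

open Polynomial in
theorem countQuad_natDegree {K : Type*} [Field K] (V : WeierstrassCurve.Affine K) (x : K) :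
    (countQuad V x).natDegree = 2 := by
  unfold countQuad
  compute_degree!

open Polynomial in
theorem countQuad_ne_zero {K : Type*} [Field K] (V : WeierstrassCurve.Affine K) (x : K) :
    countQuad V x ≠ 0 := by
  intro h
  have := countQuad_natDegree V x
  rw [h] at this
  simp at this

/-- forget the nonsingularity proof -/
def countToOption {K : Type*} [Field K] (V : WeierstrassCurve.Affine K) :
    V.Point → Option (K × K)
  | .zero => none
  | .some x y _ => Option.some (x, y)

theorem countToOption_injective {K : Type*} [Field K] (V : WeierstrassCurve.Affine K) :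
    Function.Injective (countToOption V) := by
  rintro (_ | ⟨x₁, y₁, h₁⟩) (_ | ⟨x₂, y₂, h₂⟩) h <;>
    simp only [countToOption, Option.some.injEq, Prod.mk.injEq, reduceCtorEq] at h
  · rfl
  · obtain ⟨rfl, rfl⟩ := h; rfl

open WeierstrassCurve.Affine in
theorem finite_and_ncard_le {K : Type*} [Field K] (V : WeierstrassCurve.Affine K)
    (p : Polynomial K) (hp : p ≠ 0) (S : Set V.Point)
    (hS : ∀ (x y : K) (h : V.Nonsingular x y), Point.some x y h ∈ S → p.eval x = 0) :
    S.Finite ∧ S.ncard ≤ 2 * p.natDegree + 1 := by
  classical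
  set T : Finset (K × K) := p.roots.toFinset.biUnion
    (fun x => (countQuad V x).roots.toFinset.image (fun y => (x, y))) with hT
  have hTcard : T.card ≤ 2 * p.natDegree := by
    calc T.card ≤ ∑ x ∈ p.roots.toFinset,
          ((countQuad V x).roots.toFinset.image (fun y => (x, y))).card := Finset.card_biUnion_le
      _ ≤ ∑ _x ∈ p.roots.toFinset, 2 := by
          refine Finset.sum_le_sum fun x _ => ?_
          calc ((countQuad V x).roots.toFinset.image (fun y => (x, y))).card
              ≤ (countQuad V x).roots.toFinset.card := Finset.card_image_le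
            _ ≤ Multiset.card (countQuad V x).roots := Multiset.toFinset_card_le _
            _ ≤ (countQuad V x).natDegree := Polynomial.card_roots' _
            _ = 2 := countQuad_natDegree V x
      _ = p.roots.toFinset.card * 2 := by rw [Finset.sum_const, smul_eq_mul]
      _ ≤ p.natDegree * 2 := by
          refine Nat.mul_le_mul_right 2 ?_
          exact (Multiset.toFinset_card_le _).trans (Polynomial.card_roots' _)
      _ = 2 * p.natDegree := Nat.mul_comm _ _
  have hsub : countToOption V '' S ⊆ ↑(Finset.insertNone T) := by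
    rintro _ ⟨P, hP, rfl⟩
    rcases P with _ | ⟨x, y, h⟩
    · simp [countToOption]
    · have hx : p.eval x = 0 := hS x y h hP
      have heq := (V.equation_iff x y).mp h.1
      show Option.some (x, y) ∈ (↑(Finset.insertNone T) : Set (Option (K × K)))
      rw [Finset.mem_coe, Finset.some_mem_insertNone, hT]
      simp only [Finset.mem_biUnion, Multiset.mem_toFinset, Finset.mem_image, Prod.mk.injEq]
      refine ⟨x, (Polynomial.mem_roots hp).mpr hx, y, ?_, rfl, rfl⟩
      rw [Polynomial.mem_roots (countQuad_ne_zero V x)]
      simp only [countQuad, Polynomial.IsRoot.def, Polynomial.eval_sub, Polynomial.eval_add,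
        Polynomial.eval_pow, Polynomial.eval_X, Polynomial.eval_mul, Polynomial.eval_C]
      linear_combination heq
  have hfinimg : (countToOption V '' S).Finite := (Finset.finite_toSet _).subset hsub
  have hfin : S.Finite := hfinimg.of_finite_image (countToOption_injective V).injOn
  refine ⟨hfin, ?_⟩
  calc S.ncard = (countToOption V '' S).ncard :=
        (Set.ncard_image_of_injective S (countToOption_injective V)).symm
    _ ≤ (↑(Finset.insertNone T) : Set (Option (K × K))).ncard :=
        Set.ncard_le_ncard hsub (Finset.finite_toSet _)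
    _ = (Finset.insertNone T).card := Set.ncard_coe_finset _
    _ = T.card + 1 := Finset.card_insertNone T
    _ ≤ 2 * p.natDegree + 1 := by omega

end Fermat.Agent.S51
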