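import Fermat.Agent.S51.GroupLaw

set_option autoImplicit false
set_option linter.unusedSectionVars false

open WeierstrassCurve WeierstrassCurve.Affine WeierstrassCurve.Affine.Point

namespace Fermat.Agent.S51

variable {K : Type*} [Field K] [DecidableEq K] [CharZero K] [IsAlgClosed K]
  (V : WeierstrassCurve.Affine K)

theorem exists_nonsingular (hΔ : V.Δ ≠ 0) (x : K) : ∃ y, V.Nonsingular x y := by
  obtain ⟨s, hs⟩ := IsAlgClosed.exists_pow_nat_eq (f2 V x) (n := 2) (by norm_num)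
  refine ⟨(s - V.a₁ * x - V.a₃) / 2, ?_⟩
  rw [← Affine.equation_iff_nonsingular_of_Δ_ne_zero hΔ, Affine.equation_iff]
  simp only [f2, WeierstrassCurve.b₂, WeierstrassCurve.b₄, WeierstrassCurve.b₆] at hs
  field_simp
  linear_combination hs

theorem exists_three_torsion (hΔ : V.Δ ≠ 0) : ∃ P : V.Point, P ≠ 0 ∧ (3 : ℤ) • P = 0 := by
  have h3 : (3 : K) ≠ 0 := by norm_num
  have hdeg : V.Ψ₃.degree ≠ 0 := by
    rw [Polynomial.degree_eq_natDegree (V.Ψ₃_ne_zero h3), V.natDegree_Ψ₃ h3]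
    norm_num
  obtain ⟨x, hx⟩ := IsAlgClosed.exists_root V.Ψ₃ hdeg
  obtain ⟨y, hy⟩ := exists_nonsingular V hΔ x
  refine ⟨Point.some x y hy, Point.some_ne_zero hy, ?_⟩
  rw [three_torsion_iff, ← eval_Ψ₃]
  exact hx

theorem exists_five_torsion (hΔ : V.Δ ≠ 0) : ∃ P : V.Point, P ≠ 0 ∧ (5 : ℤ) • P = 0 := by
  have h5 : ((5 : ℕ) : K) ≠ 0 := by norm_num
  have hdeg : (V.preΨ' 5).degree ≠ 0 := by
    rw [Polynomial.degree_eq_natDegree (V.preΨ'_ne_zero h5), V.natDegree_preΨ' h5]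
    norm_num
  obtain ⟨x, hx⟩ := IsAlgClosed.exists_root (V.preΨ' 5) hdeg
  obtain ⟨y, hy⟩ := exists_nonsingular V hΔ x
  refine ⟨Point.some x y hy, Point.some_ne_zero hy, ?_⟩
  rw [five_torsion_iff, ← eval_preΨ'_five]
  exact hx

end Fermat.Agent.S51
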