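import Mathlib

set_option autoImplicit false

namespace Fermat.Agent.S51

private theorem endgame_five {c4 Δ a d : ℤ} (hss : ∀ p : ℕ, p.Prime → (p : ℤ) ∣ Δ → ¬ (p : ℤ) ∣ c4)
    (ha : ¬ (5 : ℤ) ∣ a) (hd : ¬ (5 : ℤ) ∣ d)
    (h : a * c4 ^ 3 = 5 * d * Δ ∨ a * c4 ^ 3 = 25 * d * Δ) : False := by
  have hp : Prime (5 : ℤ) := by norm_num
  have h5c : (5 : ℤ) ∣ c4 := by
    have h1 : (5 : ℤ) ∣ a * c4 ^ 3 := by
      rcases h with h | h
      · exact ⟨d * Δ, by rw [h]; ring⟩
      · exact ⟨5 * d * Δ, by rw [h]; ring⟩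
    rcases hp.dvd_or_dvd h1 with h2 | h2
    · exact absurd h2 ha
    · exact hp.dvd_of_dvd_pow h2
  have h5Δ : (5 : ℤ) ∣ Δ := by
    obtain ⟨m, rfl⟩ := h5c
    have h1 : (5 : ℤ) ∣ d * Δ := by
      rcases h with h | h
      · exact ⟨5 * a * m ^ 3, by linarith⟩
      · exact ⟨a * m ^ 3, by linarith⟩
    rcases hp.dvd_or_dvd h1 with h2 | h2
    · exact absurd h2 hd
    · exact h2
  exact hss 5 (by norm_num) (by exact_mod_cast h5Δ) (by exact_mod_cast h5c)

private theorem endgame_neg_eight {c4 c6 Δ : ℤ} (hΔ : Δ ≠ 0) (hrel : c4 ^ 3 - c6 ^ 2 = 1728 * Δ)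
    (hss : ∀ p : ℕ, p.Prime → (p : ℤ) ∣ Δ → ¬ (p : ℤ) ∣ c4)
    (h : 8 * c4 ^ 3 = 1331 * Δ) : False := by
  have hp : Prime (11 : ℤ) := by norm_num
  have h11 : (11 : ℤ) ∣ c4 := by
    have h1 : (11 : ℤ) ∣ 8 * c4 ^ 3 := ⟨121 * Δ, by rw [h]; ring⟩
    rcases hp.dvd_or_dvd h1 with h2 | h2
    · norm_num at h2
    · exact hp.dvd_of_dvd_pow h2
  obtain ⟨k, rfl⟩ := h11
  have hΔk : Δ = 8 * k ^ 3 := by linarith
  have hk1 : k.natAbs = 1 := by
    by_contra hne
    obtain ⟨p, hp, hpk⟩ := Nat.exists_prime_and_dvd hne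
    have hpk' : (p : ℤ) ∣ k := Int.natCast_dvd.mpr hpk
    exact hss p hp (by rw [hΔk]; exact Dvd.dvd.mul_left (dvd_pow hpk' (by norm_num)) _)
      (Dvd.dvd.mul_left hpk' _)
  rcases Int.natAbs_eq k with hk | hk <;> rw [hk1] at hk <;> subst hk
  · subst hΔk
    push_cast at hrel
    nlinarith [sq_nonneg c6]
  · subst hΔk
    have h5 : c6 ^ 2 % 5 = 3 := by
      have : c6 ^ 2 = 12493 := by
        push_cast at hrel
        linarith
      rw [this]
      norm_num
    have : c6 % 5 = 0 ∨ c6 % 5 = 1 ∨ c6 % 5 = 2 ∨ c6 % 5 = 3 ∨ c6 % 5 = 4 := by omega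
    rcases this with h | h | h | h | h <;> simp [pow_two, Int.mul_emod, h] at h5

/-- The endgame of S51, with the determination of the rational points of `X₀(15)` as a
hypothesis. -/
theorem endgame_aux
    (hx015 : ∀ X Y : ℚ, Y ^ 2 = X * (9 * X - 4) * (4 * X + 1) →
      X = 0 ∨ X = 4 / 9 ∨ X = -1 / 4 ∨ X = 1 ∨ X = -1 / 9)
    (c4 c6 Δ : ℤ) (hΔ : Δ ≠ 0) (hrel : c4 ^ 3 - c6 ^ 2 = 1728 * Δ)
    (hss : ∀ p : ℕ, p.Prime → (p : ℤ) ∣ Δ → ¬ (p : ℤ) ∣ c4) (t X : ℚ) (ht : t ≠ 0) (hX : X ≠ 0)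
    (hj : (c4 : ℚ) ^ 3 * t = Δ * (t ^ 2 + 10 * t + 5) ^ 3)
    (hR : X ^ 3 * (t + 11) ^ 2 - 3 * X ^ 2 * (3 * X + 1) * (t + 11) + (4 * X + 1) * (X + 1) ^ 2
      - 9 * X ^ 4 = 0) : False := by
  by_cases hX1 : X = -1
  · subst hX1
    have ht8 : t = -8 := by
      have : (t + 8) ^ 2 = 0 := by linear_combination -hR
      have := pow_eq_zero_iff (two_ne_zero) |>.mp this
      linarith
    subst ht8
    refine endgame_neg_eight hΔ hrel hss ?_
    have : ((8 * c4 ^ 3 : ℤ) : ℚ) = ((1331 * Δ : ℤ) : ℚ) := by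
      push_cast
      linear_combination -hj
    exact_mod_cast this
  · have hX1' : X + 1 ≠ 0 := fun h => hX1 (by linarith)
    have hY : ((2 * X ^ 3 * (t + 11) - 3 * X ^ 2 * (3 * X + 1)) / (X * (X + 1))) ^ 2 =
        X * (9 * X - 4) * (4 * X + 1) := by
      rw [div_pow, div_eq_iff (by positivity)]
      linear_combination 4 * X ^ 3 * hR
    rcases hx015 _ _ hY with h | h | h | h | h
    · exact hX h
    · subst h
      have ht' : t = -25 / 8 := by
        have : (8 * t + 25) ^ 2 = 0 := by linear_combination 729 * hR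
        have := pow_eq_zero_iff (two_ne_zero) |>.mp this
        linarith
      subst ht'
      refine endgame_five (a := 32768) (d := 211 ^ 3) hss (by norm_num) (by norm_num) (Or.inl ?_)
      have : ((32768 * c4 ^ 3 : ℤ) : ℚ) = ((5 * 211 ^ 3 * Δ : ℤ) : ℚ) := by
        push_cast
        linear_combination (-262144 / 25) * hj
      exact_mod_cast this
    · subst h
      have ht' : t = -25 / 2 := by
        have : (2 * t + 25) ^ 2 = 0 := by linear_combination -256 * hR
        have := pow_eq_zero_iff (two_ne_zero) |>.mp this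
        linarith
      subst ht'
      refine endgame_five (a := -32) (d := 29 ^ 3) hss (by norm_num) (by norm_num) (Or.inl ?_)
      have : ((-32 * c4 ^ 3 : ℤ) : ℚ) = ((5 * 29 ^ 3 * Δ : ℤ) : ℚ) := by
        push_cast
        linear_combination (64 / 25) * hj
      exact_mod_cast this
    · subst h
      have ht' : t = -10 := by
        have h1 : (t + 10) * t = 0 := by linear_combination hR
        rcases mul_eq_zero.mp h1 with h2 | h2
        · linarith
        · exact absurd h2 ht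
      subst ht'
      refine endgame_five (a := -2) (d := 1) hss (by norm_num) (by norm_num) (Or.inr ?_)
      have : ((-2 * c4 ^ 3 : ℤ) : ℚ) = ((25 * 1 * Δ : ℤ) : ℚ) := by
        push_cast
        linear_combination (1 / 5) * hj
      exact_mod_cast this
    · subst h
      have ht' : t = -40 := by
        have h1 : (t + 40) * t = 0 := by linear_combination -729 * hR
        rcases mul_eq_zero.mp h1 with h2 | h2
        · linarith
        · exact absurd h2 ht
      subst ht'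
      refine endgame_five (a := -8) (d := 241 ^ 3) hss (by norm_num) (by norm_num) (Or.inr ?_)
      have : ((-8 * c4 ^ 3 : ℤ) : ℚ) = ((25 * 241 ^ 3 * Δ : ℤ) : ℚ) := by
        push_cast
        linear_combination (1 / 5) * hj
      exact_mod_cast this

end Fermat.Agent.S51
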