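import Fermat.Agent.S51.X015
import Fermat.Agent.S51.EndgameAux

/-!
The endgame of S51.
-/

namespace Fermat.Agent.S51

theorem endgame (c4 c6 Δ : ℤ) (hΔ : Δ ≠ 0) (hrel : c4 ^ 3 - c6 ^ 2 = 1728 * Δ)
    (hss : ∀ p : ℕ, p.Prime → (p : ℤ) ∣ Δ → ¬ (p : ℤ) ∣ c4) (t X : ℚ) (ht : t ≠ 0) (hX : X ≠ 0)
    (hj : (c4 : ℚ) ^ 3 * t = Δ * (t ^ 2 + 10 * t + 5) ^ 3)
    (hR : X ^ 3 * (t + 11) ^ 2 - 3 * X ^ 2 * (3 * X + 1) * (t + 11) + (4 * X + 1) * (X + 1) ^ 2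
      - 9 * X ^ 4 = 0) : False :=
  endgame_aux x015_points c4 c6 Δ hΔ hrel hss t X ht hX hj hR

end Fermat.Agent.S51
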