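import Fermat.Agent.S51.Galois
import Fermat.Agent.S51.Count
import Fermat.Agent.S51.Endgame

set_option autoImplicit false
set_option linter.unusedSectionVars false

open WeierstrassCurve WeierstrassCurve.Affine WeierstrassCurve.Affine.Point

namespace Fermat.Agent.S51

local notation "Kb" => AlgebraicClosure ℚ
local notation "Gal" => (AlgebraicClosure ℚ ≃ₐ[ℚ] AlgebraicClosure ℚ)

variable (E : WeierstrassCurve.Affine ℚ)

/-- From reducibility to a Galois-stable cyclic subgroup. -/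
theorem exists_line (n : ℕ) [Fact n.Prime]
    (hnt : ∃ P : (E⁄Kb).Point, P ≠ 0 ∧ ((n : ℕ) : ℤ) • P = 0)
    (hfin : ((Submodule.torsionBy ℤ (E⁄Kb).Point n : Submodule ℤ (E⁄Kb).Point) :
      Set (E⁄Kb).Point).Finite)
    (hcard : ((Submodule.torsionBy ℤ (E⁄Kb).Point n : Submodule ℤ (E⁄Kb).Point) :
      Set (E⁄Kb).Point).ncard ≤ n ^ 2)
    (hred : ¬ GaloisRepIsIrreducible (K := Kb) ℚ E n) :
    ∃ P : (E⁄Kb).Point, P ≠ 0 ∧ ((n : ℕ) : ℤ) • P = 0 ∧
      ∀ σ : Gal, ∃ k : ℕ, k < n ∧ σ • P = k • P := by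
  have hN : Nontrivial (Submodule.torsionBy ℤ (E⁄Kb).Point n) := by
    obtain ⟨P, hP0, hP⟩ := hnt
    refine ⟨⟨⟨P, (Submodule.mem_torsionBy_iff _ _).2 hP⟩, 0, ?_⟩⟩
    intro h
    exact hP0 (congrArg Subtype.val h)
  have hF : Finite (Submodule.torsionBy ℤ (E⁄Kb).Point n) := hfin
  have hC : Nat.card (Submodule.torsionBy ℤ (E⁄Kb).Point n) ≤ n ^ 2 := by
    rw [← _root_.Nat.card_coe_set_eq] at hcard
    exact hcard
  unfold GaloisRepIsIrreducible at hred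
  push Not at hred
  obtain ⟨N, hNs, hN0, hN1⟩ := hred hN
  obtain ⟨v, hvN, hv0, hv⟩ := line_of_card_le hC N hN0 hN1
  refine ⟨v.1, fun h => hv0 (Subtype.ext h), (Submodule.mem_torsionBy_iff _ _).1 v.2, ?_⟩
  intro σ
  obtain ⟨k, hk, hkv⟩ := hv (σ • v) (hNs σ v hvN)
  refine ⟨k, hk, ?_⟩
  have := congrArg Subtype.val hkv
  have e : ((k • v : Submodule.torsionBy ℤ (E⁄Kb).Point n) : (E⁄Kb).Point) = k • v.1 := by
    simp
  rw [e] at this
  exact this

theorem line3 (hΔ : (E⁄Kb).Δ ≠ 0) (hred : ¬ GaloisRepIsIrreducible (K := Kb) ℚ E 3) :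
    ∃ x3 : Kb, psi3 (E⁄Kb) x3 = 0 ∧ ∀ σ : Gal, σ x3 = x3 := by
  have : Fact (Nat.Prime 3) := ⟨by norm_num⟩
  have h3K : (3 : Kb) ≠ 0 := by norm_num
  have hcount := finite_and_ncard_le (E⁄Kb) (E⁄Kb).Ψ₃ ((E⁄Kb).Ψ₃_ne_zero h3K)
    ((Submodule.torsionBy ℤ (E⁄Kb).Point (3 : ℕ) : Submodule ℤ (E⁄Kb).Point) : Set (E⁄Kb).Point)
    (by
      intro x y h hmem
      have h' : ((3 : ℕ) : ℤ) • Point.some x y h = 0 := (Submodule.mem_torsionBy_iff _ _).1 hmem
      rw [Nat.cast_ofNat] at h'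
      rw [eval_Ψ₃]
      exact (three_torsion_iff _ h).1 h')
  rw [(E⁄Kb).natDegree_Ψ₃ h3K] at hcount
  obtain ⟨P, hP0, hP3, hσ⟩ := exists_line E 3
    (by
      obtain ⟨P, hP0, hP⟩ := exists_three_torsion (E⁄Kb) hΔ
      exact ⟨P, hP0, by rw [Nat.cast_ofNat]; exact hP⟩)
    hcount.1 (by simpa using hcount.2) hred
  rw [Nat.cast_ofNat] at hP3
  match P, hP0, hP3, hσ with
  | .zero, hP0, _, _ => exact absurd rfl hP0
  | .some x y h, _, hP3, hσ =>
    refine ⟨x, (three_torsion_iff _ h).1 hP3, ?_⟩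
    intro σ
    obtain ⟨k, hk, hkP⟩ := hσ σ
    obtain ⟨h', hs⟩ := smul_some E σ h
    rcases three_cases _ _ hP3 k hk hkP with e | e | e
    · rw [hs] at e
      exact absurd e (Point.some_ne_zero h')
    · rw [hs] at e
      injection e
    · rw [hs, Point.neg_some] at e
      injection e

theorem line5 (hΔ : (E⁄Kb).Δ ≠ 0) (hred : ¬ GaloisRepIsIrreducible (K := Kb) ℚ E 5) :
    ∃ (x1 y1 : Kb) (h1 : (E⁄Kb).Nonsingular x1 y1), (5 : ℤ) • Point.some x1 y1 h1 = 0 ∧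
      ∀ (x2 y2 : Kb) (h2 : (E⁄Kb).Nonsingular x2 y2),
        Point.some x1 y1 h1 + Point.some x1 y1 h1 = Point.some x2 y2 h2 →
        ∀ σ : Gal, (σ x1 = x1 ∧ σ x2 = x2) ∨ (σ x1 = x2 ∧ σ x2 = x1) := by
  have : Fact (Nat.Prime 5) := ⟨by norm_num⟩
  have h5K : ((5 : ℕ) : Kb) ≠ 0 := by norm_num
  have hcount := finite_and_ncard_le (E⁄Kb) ((E⁄Kb).preΨ' 5) ((E⁄Kb).preΨ'_ne_zero h5K)
    ((Submodule.torsionBy ℤ (E⁄Kb).Point (5 : ℕ) : Submodule ℤ (E⁄Kb).Point) : Set (E⁄Kb).Point)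
    (by
      intro x y h hmem
      have h' : ((5 : ℕ) : ℤ) • Point.some x y h = 0 := (Submodule.mem_torsionBy_iff _ _).1 hmem
      rw [Nat.cast_ofNat] at h'
      rw [eval_preΨ'_five]
      exact (five_torsion_iff _ h).1 h')
  rw [(E⁄Kb).natDegree_preΨ' h5K] at hcount
  obtain ⟨P, hP0, hP5, hσ⟩ := exists_line E 5
    (by
      obtain ⟨P, hP0, hP⟩ := exists_five_torsion (E⁄Kb) hΔ
      exact ⟨P, hP0, by rw [Nat.cast_ofNat]; exact hP⟩)
    hcount.1 (by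
      have := hcount.2
      norm_num at this ⊢
      exact this) hred
  rw [Nat.cast_ofNat] at hP5
  match P, hP0, hP5, hσ with
  | .zero, hP0, _, _ => exact absurd rfl hP0
  | .some x y h, _, hP5, hσ =>
    refine ⟨x, y, h, hP5, ?_⟩
    intro x2 y2 h2 hd σ
    obtain ⟨k, hk, hkP⟩ := hσ σ
    obtain ⟨h', hs⟩ := smul_some E σ h
    obtain ⟨h2', hs2⟩ := smul_some E σ h2
    have hdd : σ • Point.some x y h + σ • Point.some x y h = Point.some (σ x2) (σ y2) h2' := by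
      have hsa : σ • (Point.some x y h + Point.some x y h)
          = σ • Point.some x y h + σ • Point.some x y h := by
        simp only [algEquiv_smul_def, map_add]
      rw [hd] at hsa
      exact hsa.symm.trans hs2
    rcases five_cases _ _ hP5 k hk hkP with e | ⟨e, e2⟩ | ⟨e, e2⟩ | ⟨e, e2⟩ | ⟨e, e2⟩
    · rw [hs] at e
      exact absurd e (Point.some_ne_zero h')
    · left
      rw [hdd, hd] at e2
      rw [hs] at e
      constructor
      · injection e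
      · injection e2
    · right
      rw [hdd, Point.neg_some] at e2
      rw [hs, hd] at e
      constructor
      · injection e
      · injection e2
    · right
      rw [hdd] at e2
      rw [hs, hd, Point.neg_some] at e
      constructor
      · injection e
      · injection e2
    · left
      rw [hdd, hd, Point.neg_some] at e2
      rw [hs, Point.neg_some] at e
      constructor
      · injection e
      · injection e2

theorem main (W : WeierstrassCurve ℤ) (hΔ : W.Δ ≠ 0) (hW : W.IsSemistableModel) :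
    W.ModRepIsIrreducible 3 ∨ W.ModRepIsIrreducible 5 := by
  by_contra hcon
  push Not at hcon
  obtain ⟨h3, h5⟩ := hcon
  obtain ⟨E, hE⟩ : ∃ E : WeierstrassCurve.Affine ℚ, E = W.map (Int.castRingHom ℚ) := ⟨_, rfl⟩
  unfold WeierstrassCurve.ModRepIsIrreducible at h3 h5
  rw [← hE] at h3 h5
  have hc4K : (E⁄Kb).c₄ = algebraMap ℚ Kb (W.c₄ : ℚ) := by
    rw [hE]; simp [WeierstrassCurve.baseChange]
  have hΔKe : (E⁄Kb).Δ = algebraMap ℚ Kb (W.Δ : ℚ) := by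
    rw [hE]; simp [WeierstrassCurve.baseChange]
  have hΔK : (E⁄Kb).Δ ≠ 0 := by
    rw [hΔKe]
    intro h0
    have : (W.Δ : ℚ) = 0 := (map_eq_zero (algebraMap ℚ Kb)).1 h0
    exact hΔ (by exact_mod_cast this)
  obtain ⟨x3, hx3, hσ3⟩ := line3 E hΔK h3
  obtain ⟨x1, y1, h1, hP5, hσ5⟩ := line5 E hΔK h5
  obtain ⟨x2, y2, h2, hd, hx12, hf1, hf2, hj, hR⟩ := five_data (E⁄Kb) h1 hP5
  have hσ := hσ5 x2 y2 h2 hd
  have hR3 := hR x3 hx3
  obtain ⟨t, ht⟩ : ∃ t : Kb, t = (E⁄Kb).Δ / (f2 (E⁄Kb) x1 * f2 (E⁄Kb) x2) := ⟨_, rfl⟩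
  obtain ⟨X, hX⟩ : ∃ X : Kb, X = (x3 - x1) * (x3 - x2) / (x1 - x2) ^ 2 := ⟨_, rfl⟩
  rw [← ht] at hj hR3
  rw [← hX] at hR3
  have ht_fixed : ∀ σ : Gal, σ t = t := by
    intro σ
    rw [ht, map_div₀, map_mul, Δ_apply, ← f2_apply, ← f2_apply]
    rcases hσ σ with ⟨e1, e2⟩ | ⟨e1, e2⟩
    · rw [e1, e2]
    · rw [e1, e2, mul_comm]
  have hX_fixed : ∀ σ : Gal, σ X = X := by
    intro σ
    rw [hX, map_div₀, map_mul, map_pow, map_sub, map_sub, map_sub, hσ3 σ]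
    rcases hσ σ with ⟨e1, e2⟩ | ⟨e1, e2⟩
    · rw [e1, e2]
    · rw [e1, e2]
      have : (x2 - x1) ^ 2 = (x1 - x2) ^ 2 := by ring
      rw [this, mul_comm]
  obtain ⟨t0, ht0⟩ := exists_rat_of_fixed t ht_fixed
  obtain ⟨X0, hX0⟩ := exists_rat_of_fixed X hX_fixed
  have hinj : Function.Injective (algebraMap ℚ Kb) := (algebraMap ℚ Kb).injective
  have ht_ne : t0 ≠ 0 := by
    intro h0
    rw [h0, _root_.map_zero] at ht0
    rw [← ht0] at ht
    exact (div_ne_zero hΔK (mul_ne_zero hf1 hf2)) ht.symm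
  -- `x3 ≠ x1`, `x3 ≠ x2`
  have hP0 : Point.some x1 y1 h1 ≠ 0 := Point.some_ne_zero h1
  have hx31 : x3 ≠ x1 := by
    intro e
    rw [e] at hx3
    have h3' := (three_torsion_iff (E⁄Kb) h1).2 hx3
    exact hP0 (eq_zero_of_three_five _ h3' hP5)
  have hx32 : x3 ≠ x2 := by
    intro e
    rw [e] at hx3
    have h3' := (three_torsion_iff (E⁄Kb) h2).2 hx3
    have h5' : (5 : ℤ) • Point.some x2 y2 h2 = 0 := by
      rw [← hd, smul_add, hP5, add_zero]
    exact Point.some_ne_zero h2 (eq_zero_of_three_five _ h3' h5')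
  have hX_ne : X0 ≠ 0 := by
    intro h0
    rw [h0, _root_.map_zero] at hX0
    rw [← hX0] at hX
    exact (div_ne_zero (mul_ne_zero (sub_ne_zero.2 hx31) (sub_ne_zero.2 hx32))
      (pow_ne_zero 2 (sub_ne_zero.2 hx12))) hX.symm
  refine endgame W.c₄ W.c₆ W.Δ hΔ (by rw [W.c_relation]) hW t0 X0 ht_ne hX_ne ?_ ?_
  · apply hinj
    rw [hc4K, hΔKe, ← ht0] at hj
    simpa using hj
  · apply hinj
    rw [← ht0, ← hX0] at hR3
    simpa using hR3

end Fermat.Agent.S51
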