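import Mathlib

/-!
Fermat descent for `M^4 - 322 M^2 e^2 + e^4 = N^2`.
-/

set_option autoImplicit false

namespace Fermat.Agent.S51

/-- squares mod 8 -/
theorem desc_sq_odd (x : ℤ) (h : x % 2 = 1) : ∃ m, x ^ 2 = 8 * m + 1 := by
  obtain ⟨t, rfl⟩ : ∃ t, x = 2 * t + 1 := ⟨x / 2, by omega⟩
  rcases Int.even_or_odd' t with ⟨u, rfl | rfl⟩
  · exact ⟨2 * u ^ 2 + u, by ring⟩
  · exact ⟨2 * u ^ 2 + 3 * u + 1, by ring⟩

theorem desc_sq_even (x : ℤ) (h : x % 2 = 0) : ∃ m, x ^ 2 = 4 * m := by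
  obtain ⟨t, rfl⟩ : ∃ t, x = 2 * t := ⟨x / 2, by omega⟩
  exact ⟨t ^ 2, by ring⟩

theorem desc_sq_mod_three (x : ℤ) (h : ¬ (3 : ℤ) ∣ x) : ∃ m, x ^ 2 = 3 * m + 1 := by
  have h3 : x % 3 = 1 ∨ x % 3 = 2 := by omega
  rcases h3 with h3 | h3
  · obtain ⟨t, rfl⟩ : ∃ t, x = 3 * t + 1 := ⟨x / 3, by omega⟩
    exact ⟨3 * t ^ 2 + 2 * t, by ring⟩
  · obtain ⟨t, rfl⟩ : ∃ t, x = 3 * t + 2 := ⟨x / 3, by omega⟩
    exact ⟨3 * t ^ 2 + 4 * t + 1, by ring⟩

theorem desc_sq_mod_three' (x : ℤ) (h : (3 : ℤ) ∣ x) : ∃ m, x ^ 2 = 3 * m := by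
  obtain ⟨t, rfl⟩ := h
  exact ⟨3 * t ^ 2, by ring⟩

/-- any square is `0, 1, 4 mod 8` -/
theorem desc_sq_mod_eight (x : ℤ) : x ^ 2 % 8 = 0 ∨ x ^ 2 % 8 = 1 ∨ x ^ 2 % 8 = 4 := by
  rcases Int.emod_two_eq_zero_or_one x with h | h
  · obtain ⟨t, rfl⟩ : ∃ t, x = 2 * t := ⟨x / 2, by omega⟩
    rcases Int.emod_two_eq_zero_or_one t with h' | h'
    · obtain ⟨m, hm⟩ := desc_sq_even t h'
      have : (2 * t) ^ 2 = 4 * t ^ 2 := by ring
      omega
    · obtain ⟨m, hm⟩ := desc_sq_odd t h'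
      have : (2 * t) ^ 2 = 4 * t ^ 2 := by ring
      omega
  · obtain ⟨m, hm⟩ := desc_sq_odd x h
    omega

/-- Lemma L. -/
theorem desc_lemmaL (r s z : ℤ) (hrs : IsCoprime r s)
    (hpar : (r % 2 = 0 ∧ s % 2 = 1) ∨ (r % 2 = 1 ∧ s % 2 = 0)) :
    (5 * s ^ 2 - 4 * r ^ 2) * (5 * r ^ 2 - 4 * s ^ 2) ≠ z ^ 2 := by
  intro hz
  -- the two factors are coprime
  have h3 : ¬ ((3 : ℤ) ∣ r ∧ (3 : ℤ) ∣ s) := by
    rintro ⟨h1, h2⟩
    have := hrs.isUnit_of_dvd' h1 h2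
    exact absurd this (by decide)
  have hcop : IsCoprime (5 * s ^ 2 - 4 * r ^ 2) (5 * r ^ 2 - 4 * s ^ 2) := by
    have h9 : IsCoprime (5 * s ^ 2 - 4 * r ^ 2) (5 * r ^ 2 - 4 * s ^ 2) ↔ True := by
      simp only [iff_true]
      rw [Int.isCoprime_iff_gcd_eq_one]
      by_contra hg
      obtain ⟨ℓ, hℓ, hdvd⟩ := Nat.exists_prime_and_dvd hg
      have hd1 : (ℓ : ℤ) ∣ 5 * s ^ 2 - 4 * r ^ 2 :=
        (Int.natCast_dvd_natCast.mpr hdvd).trans (Int.gcd_dvd_left _ _)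
      have hd2 : (ℓ : ℤ) ∣ 5 * r ^ 2 - 4 * s ^ 2 :=
        (Int.natCast_dvd_natCast.mpr hdvd).trans (Int.gcd_dvd_right _ _)
      have hℓ' : Prime (ℓ : ℤ) := Nat.prime_iff_prime_int.mp hℓ
      have hs9 : (ℓ : ℤ) ∣ 9 * s ^ 2 := by
        have h := (hd1.mul_left 5).add (hd2.mul_left 4)
        have e : 5 * (5 * s ^ 2 - 4 * r ^ 2) + 4 * (5 * r ^ 2 - 4 * s ^ 2) = 9 * s ^ 2 := by ring
        rwa [e] at h
      have hr9 : (ℓ : ℤ) ∣ 9 * r ^ 2 := by
        have h := (hd1.mul_left 4).add (hd2.mul_left 5)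
        have e : 4 * (5 * s ^ 2 - 4 * r ^ 2) + 5 * (5 * r ^ 2 - 4 * s ^ 2) = 9 * r ^ 2 := by ring
        rwa [e] at h
      by_cases hl3 : (ℓ : ℤ) ∣ 9
      · have hl3' : (ℓ : ℤ) ∣ 3 := by
          have : (ℓ : ℤ) ∣ 3 ^ 2 := by norm_num; exact hl3
          exact hℓ'.dvd_of_dvd_pow this
        have hl3'' : ℓ = 3 := by
          have : ℓ ∣ 3 := by exact_mod_cast hl3'
          exact (Nat.prime_dvd_prime_iff_eq hℓ Nat.prime_three).mp this
        subst hl3''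
        apply h3
        by_cases hr : (3 : ℤ) ∣ r <;> by_cases hs : (3 : ℤ) ∣ s
        · exact ⟨hr, hs⟩
        · exfalso
          obtain ⟨m, hm⟩ := desc_sq_mod_three' r hr
          obtain ⟨n, hn⟩ := desc_sq_mod_three s hs
          obtain ⟨w, hw⟩ := hd1
          push_cast at hw
          omega
        · exfalso
          obtain ⟨m, hm⟩ := desc_sq_mod_three r hr
          obtain ⟨n, hn⟩ := desc_sq_mod_three' s hs
          obtain ⟨w, hw⟩ := hd1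
          push_cast at hw
          omega
        · exfalso
          obtain ⟨m, hm⟩ := desc_sq_mod_three r hr
          obtain ⟨n, hn⟩ := desc_sq_mod_three s hs
          obtain ⟨w, hw⟩ := hd1
          push_cast at hw
          omega
      · have hs' : (ℓ : ℤ) ∣ s := by
          rcases hℓ'.dvd_or_dvd hs9 with h | h
          · exact absurd h hl3
          · exact hℓ'.dvd_of_dvd_pow h
        have hr' : (ℓ : ℤ) ∣ r := by
          rcases hℓ'.dvd_or_dvd hr9 with h | h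
          · exact absurd h hl3
          · exact hℓ'.dvd_of_dvd_pow h
        exact hℓ'.not_isUnit (hrs.isUnit_of_dvd' hr' hs')
    exact h9.mpr trivial
  rcases hpar with ⟨hr, hs⟩ | ⟨hr, hs⟩
  · obtain ⟨a0, ha0⟩ := Int.sq_of_isCoprime hcop hz
    obtain ⟨m, hm⟩ := desc_sq_even r hr
    obtain ⟨n, hn⟩ := desc_sq_odd s hs
    have := desc_sq_mod_eight a0
    omega
  · obtain ⟨a0, ha0⟩ := Int.sq_of_isCoprime hcop.symm (by rw [mul_comm]; exact hz)
    obtain ⟨m, hm⟩ := desc_sq_odd r hr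
    obtain ⟨n, hn⟩ := desc_sq_even s hs
    have := desc_sq_mod_eight a0
    omega


theorem desc_natAbs_lt (c a m n d : ℤ) (hc : c ≠ 0) (ha : a ≠ 0) (hm : m ≠ 0) (hn : n ≠ 0)
    (hd : d ≠ 0) : (m * n).natAbs < (c * a * (2 * m * n * d)).natAbs := by
  have e1 : (c * a * (2 * m * n * d)).natAbs
      = (c.natAbs * a.natAbs * d.natAbs) * (2 * (m * n).natAbs) := by
    simp only [Int.natAbs_mul]
    have : (2 : ℤ).natAbs = 2 := rfl
    rw [this]; ring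
  rw [e1]
  have h1 : 0 < c.natAbs * a.natAbs * d.natAbs :=
    Nat.mul_pos (Nat.mul_pos (Int.natAbs_pos.mpr hc) (Int.natAbs_pos.mpr ha))
      (Int.natAbs_pos.mpr hd)
  have h2 : 0 < (m * n).natAbs := Int.natAbs_pos.mpr (mul_ne_zero hm hn)
  calc (m * n).natAbs < 2 * (m * n).natAbs := by omega
    _ ≤ (c.natAbs * a.natAbs * d.natAbs) * (2 * (m * n).natAbs) := Nat.le_mul_of_pos_left _ h1

set_option maxHeartbeats 2000000 in
theorem desc_k_eq_80 (A B C D k w αa αc αd αb βa βd : ℤ) (hk : 81 * C - D = A * k)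
    (hk2 : C - D = B * k) (hw : 80 = k * w) (hkle : k ≤ 80) (hkge : -80 ≤ k)
    (hαa : A = 8 * αa + 1) (hαc : C = 8 * αc + 1) (hαd : D = 8 * αd + 1) (hαb : B = 4 * αb)
    (hβa : A = 3 * βa + 1) (hβd : D = 3 * βd + 1) : k = 80 := by
  interval_cases k <;> omega

set_option maxHeartbeats 2000000 in
theorem desc_k_eq_5 (A B C D k w αa αc αd αb βa βd : ℤ) (hk : 81 * C - D = A * k)
    (hk2 : C - D = B * k) (hw : 80 = k * w) (hkle : k ≤ 80) (hkge : -80 ≤ k)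
    (hαa : A = 8 * αa + 1) (hαc : C = 8 * αc + 1) (hαd : D = 4 * αd) (_hαb : B = 8 * αb + 1)
    (hβa : A = 3 * βa + 1) (hβd : D = 3 * βd + 1) : k = 5 := by
  interval_cases k <;> omega

/-- core descent step, `M` odd and `e` even. -/
theorem desc_core (M e p1 q : ℤ) (hMe : IsCoprime M e) (hpq : IsCoprime p1 q)
    (h3q : ¬ (3 : ℤ) ∣ q) (h1 : p1 * q = M * e) (h2 : M ^ 2 + e ^ 2 = 81 * p1 ^ 2 + q ^ 2)
    (hM : M ≠ 0) (he : e ≠ 0) (hMo : M % 2 = 1) (hee : e % 2 = 0) :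
    ∃ r s t : ℤ, IsCoprime r s ∧ r ≠ 0 ∧ s ≠ 0 ∧ (r * s).natAbs < (M * e).natAbs ∧
      r ^ 4 - 322 * r ^ 2 * s ^ 2 + s ^ 4 = t ^ 2 := by
  have hdvd : M ∣ p1 * q := ⟨e, h1⟩
  obtain ⟨c, a, ⟨b, rfl⟩, ⟨d, rfl⟩, rfl⟩ := exists_dvd_and_dvd_of_dvd_mul hdvd
  have he' : e = b * d := by
    have : (c * a) * (b * d) = (c * a) * e := by rw [← h1]; ring
    exact (mul_left_cancel₀ hM this).symm
  subst he'
  have hc0 : c ≠ 0 := left_ne_zero_of_mul hM
  have ha0 : a ≠ 0 := right_ne_zero_of_mul hM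
  have hb0 : b ≠ 0 := left_ne_zero_of_mul he
  have hd0 : d ≠ 0 := right_ne_zero_of_mul he
  have hab : IsCoprime a b := hMe.of_mul_left_right.of_mul_right_left
  have hcd : IsCoprime c d := hMe.of_mul_left_left.of_mul_right_right
  have hcb : IsCoprime c b := hMe.of_mul_left_left.of_mul_right_left
  have hbd : IsCoprime b d := hpq.of_mul_left_right.of_mul_right_right
  have h3a : ¬ (3 : ℤ) ∣ a := fun h => h3q (h.mul_right d)
  have h3d : ¬ (3 : ℤ) ∣ d := fun h => h3q (h.mul_left a)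
  have hco : c % 2 = 1 := by
    rcases Int.emod_two_eq_zero_or_one c with h | h
    · exfalso
      have : (c * a) % 2 = 0 := by rw [Int.mul_emod, h]; simp
      omega
    · exact h
  have hao : a % 2 = 1 := by
    rcases Int.emod_two_eq_zero_or_one a with h | h
    · exfalso
      have : (c * a) % 2 = 0 := by rw [Int.mul_emod, h]; simp
      omega
    · exact h
  have key : a ^ 2 * (c ^ 2 - d ^ 2) = b ^ 2 * (81 * c ^ 2 - d ^ 2) := by
    linear_combination h2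
  have hab2 : IsCoprime (a ^ 2) (b ^ 2) := hab.pow
  obtain ⟨k, hk⟩ : a ^ 2 ∣ 81 * c ^ 2 - d ^ 2 :=
    hab2.dvd_of_dvd_mul_left ⟨c ^ 2 - d ^ 2, key.symm⟩
  have hk2 : c ^ 2 - d ^ 2 = b ^ 2 * k := by
    have h : a ^ 2 * (c ^ 2 - d ^ 2) = a ^ 2 * (b ^ 2 * k) := by
      rw [key, hk]; ring
    exact mul_left_cancel₀ (pow_ne_zero 2 ha0) h
  have hk80 : k ∣ 80 := by
    obtain ⟨u, v, huv⟩ : IsCoprime (c ^ 2) (d ^ 2) := hcd.pow
    refine ⟨u * (a ^ 2 - b ^ 2) + v * (a ^ 2 - 81 * b ^ 2), ?_⟩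
    linear_combination (-80 : ℤ) * huv + (u + v) * hk - (u + 81 * v) * hk2
  have hkle : k ≤ 80 := Int.le_of_dvd (by norm_num) hk80
  have hkge : -80 ≤ k := by
    have := Int.le_of_dvd (by norm_num) (neg_dvd.mpr hk80)
    omega
  obtain ⟨w, hw⟩ := hk80
  obtain ⟨αa, hαa⟩ := desc_sq_odd a hao
  obtain ⟨αc, hαc⟩ := desc_sq_odd c hco
  obtain ⟨βa, hβa⟩ := desc_sq_mod_three a h3a
  obtain ⟨βd, hβd⟩ := desc_sq_mod_three d h3d
  rcases Int.emod_two_eq_zero_or_one b with hbe | hbo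
  · -- `b` even, `d` odd
    have hdo : d % 2 = 1 := by
      rcases Int.emod_two_eq_zero_or_one d with h | h
      · exfalso
        have h2b : (2 : ℤ) ∣ b := Int.dvd_of_emod_eq_zero hbe
        have h2d : (2 : ℤ) ∣ d := Int.dvd_of_emod_eq_zero h
        exact absurd (hbd.isUnit_of_dvd' h2b h2d) (by decide)
      · exact h
    obtain ⟨αd, hαd⟩ := desc_sq_odd d hdo
    obtain ⟨αb, hαb⟩ := desc_sq_even b hbe
    have hk : k = 80 := desc_k_eq_80 _ _ _ _ k w _ _ _ _ _ _ hk hk2 hw hkle hkge hαa hαc hαd hαb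
      hβa hβd
    subst hk
    have hcba : c ^ 2 + b ^ 2 = a ^ 2 := by omega
    have hdab : d ^ 2 = a ^ 2 - 81 * b ^ 2 := by omega
    have hpy : PythagoreanTriple c b |a| := by
      unfold PythagoreanTriple
      rw [abs_mul_abs_self]
      linear_combination hcba
    obtain ⟨m, n, hc, hb, ha, hmn, -, -⟩ := hpy.coprime_classification'
      (Int.isCoprime_iff_gcd_eq_one.mp hcb) hco (abs_pos.mpr ha0)
    have hm0 : m ≠ 0 := by
      rintro rfl
      apply hb0; rw [hb]; ring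
    have hn0 : n ≠ 0 := by
      rintro rfl
      apply hb0; rw [hb]; ring
    refine ⟨m, n, d, Int.isCoprime_iff_gcd_eq_one.mpr hmn, hm0, hn0, ?_, ?_⟩
    · rw [hb]
      exact desc_natAbs_lt c a m n d hc0 ha0 hm0 hn0 hd0
    · have ha2 : a ^ 2 = (m ^ 2 + n ^ 2) ^ 2 := by rw [← ha, sq_abs]
      rw [hdab, ha2, hb]; ring
  · -- `b` odd, `d` even
    have hde : d % 2 = 0 := by
      rcases Int.emod_two_eq_zero_or_one d with h | h
      · exact h
      · exfalso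
        have : (b * d) % 2 = 1 := by rw [Int.mul_emod, hbo, h]; rfl
        omega
    obtain ⟨αd, hαd⟩ := desc_sq_even d hde
    obtain ⟨αb, hαb⟩ := desc_sq_odd b hbo
    have hk : k = 5 := desc_k_eq_5 _ _ _ _ k w _ _ _ _ _ _ hk hk2 hw hkle hkge hαa hαc hαd hαb
      hβa hβd
    subst hk
    exfalso
    have hcba : b ^ 2 + 16 * c ^ 2 = a ^ 2 := by omega
    have hdab : 16 * d ^ 2 = a ^ 2 - 81 * b ^ 2 := by omega
    have hpy : PythagoreanTriple b (4 * c) |a| := by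
      unfold PythagoreanTriple
      rw [abs_mul_abs_self]
      linear_combination hcba
    have hb4 : IsCoprime b 4 := ⟨b, -2 * αb, by linear_combination hαb⟩
    have hb4c : IsCoprime b (4 * c) := hb4.mul_right hcb.symm
    obtain ⟨m, n, hb, hc, ha, hmn, hpar, -⟩ := hpy.coprime_classification'
      (Int.isCoprime_iff_gcd_eq_one.mp hb4c) hbo (abs_pos.mpr ha0)
    have ha2 : a ^ 2 = (m ^ 2 + n ^ 2) ^ 2 := by rw [← ha, sq_abs]
    refine desc_lemmaL m n (2 * d) (Int.isCoprime_iff_gcd_eq_one.mpr hmn) hpar ?_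
    rw [ha2, hb] at hdab
    have h4 : (4 : ℤ) * ((5 * n ^ 2 - 4 * m ^ 2) * (5 * m ^ 2 - 4 * n ^ 2)) = 4 * (2 * d) ^ 2 := by
      linear_combination -hdab
    exact mul_left_cancel₀ (by norm_num) h4


theorem desc_three_dvd_of_sq_add_sq (M e : ℤ) (h : (3 : ℤ) ∣ M ^ 2 + e ^ 2) :
    (3 : ℤ) ∣ M ∧ (3 : ℤ) ∣ e := by
  obtain ⟨w, hw⟩ := h
  by_cases hM : (3 : ℤ) ∣ M <;> by_cases he : (3 : ℤ) ∣ e
  · exact ⟨hM, he⟩
  · exfalso
    obtain ⟨m, hm⟩ := desc_sq_mod_three' M hM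
    obtain ⟨n, hn⟩ := desc_sq_mod_three e he
    omega
  · exfalso
    obtain ⟨m, hm⟩ := desc_sq_mod_three M hM
    obtain ⟨n, hn⟩ := desc_sq_mod_three' e he
    omega
  · exfalso
    obtain ⟨m, hm⟩ := desc_sq_mod_three M hM
    obtain ⟨n, hn⟩ := desc_sq_mod_three e he
    omega

/-- descent step for `M` odd, `e` even -/
theorem desc_step (M e N : ℤ) (hMe : IsCoprime M e) (hM : M ≠ 0) (he : e ≠ 0)
    (hMo : M % 2 = 1) (hee : e % 2 = 0)
    (h : M ^ 4 - 322 * M ^ 2 * e ^ 2 + e ^ 4 = N ^ 2) :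
    ∃ r s t : ℤ, IsCoprime r s ∧ r ≠ 0 ∧ s ≠ 0 ∧ (r * s).natAbs < (M * e).natAbs ∧
      r ^ 4 - 322 * r ^ 2 * s ^ 2 + s ^ 4 = t ^ 2 := by
  have hNo : N % 2 = 1 := by
    rcases Int.emod_two_eq_zero_or_one N with hN | hN
    · exfalso
      obtain ⟨n, hn⟩ := desc_sq_even N hN
      obtain ⟨m, hm⟩ := desc_sq_odd M hMo
      obtain ⟨f, hf⟩ := desc_sq_even e hee
      have h' : (M ^ 2) ^ 2 - 322 * M ^ 2 * e ^ 2 + (e ^ 2) ^ 2 = N ^ 2 := by
        rw [← h]; ring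
      rw [hn, hm, hf] at h'
      have h'' : 2 * (32 * m ^ 2 + 8 * m - 5152 * m * f - 644 * f + 8 * f ^ 2 - 2 * n) = -1 := by
        linear_combination h'
      omega
    · exact hN
  have hpy : PythagoreanTriple N (18 * M * e) (M ^ 2 + e ^ 2) := by
    unfold PythagoreanTriple
    linear_combination -h
  have hpos : 0 < M ^ 2 + e ^ 2 := by positivity
  have hgcd : Int.gcd N (18 * M * e) = 1 := by
    by_contra hg
    obtain ⟨ℓ, hℓ, hdvd⟩ := Nat.exists_prime_and_dvd hg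
    have hd1 : (ℓ : ℤ) ∣ N := (Int.natCast_dvd_natCast.mpr hdvd).trans (Int.gcd_dvd_left _ _)
    have hd2 : (ℓ : ℤ) ∣ 18 * M * e :=
      (Int.natCast_dvd_natCast.mpr hdvd).trans (Int.gcd_dvd_right _ _)
    have hℓ' : Prime (ℓ : ℤ) := Nat.prime_iff_prime_int.mp hℓ
    have hd3 : (ℓ : ℤ) ∣ M ^ 2 + e ^ 2 := by
      have h4 : (ℓ : ℤ) ∣ (M ^ 2 + e ^ 2) ^ 2 := by
        have e1 : (M ^ 2 + e ^ 2) ^ 2 = N * N + (18 * M * e) * (18 * M * e) := by
          linear_combination h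
        rw [e1]
        exact (hd1.mul_right _).add (hd2.mul_right _)
      exact hℓ'.dvd_of_dvd_pow h4
    rcases hℓ'.dvd_or_dvd hd2 with h5 | h5
    · rcases hℓ'.dvd_or_dvd h5 with h6 | h6
      · -- ℓ ∣ 18
        have h7 : (ℓ : ℤ) ∣ 2 * 3 ^ 2 := by norm_num; exact h6
        rcases hℓ'.dvd_or_dvd h7 with h8 | h8
        · have : (2 : ℤ) ∣ N := by
            have h9 : ℓ ∣ 2 := by exact_mod_cast h8
            have h10 : ℓ = 2 := (Nat.prime_dvd_prime_iff_eq hℓ Nat.prime_two).mp h9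
            subst h10
            exact_mod_cast hd1
          omega
        · have h9 : (ℓ : ℤ) ∣ 3 := hℓ'.dvd_of_dvd_pow h8
          have h10 : ℓ ∣ 3 := by exact_mod_cast h9
          have h11 : ℓ = 3 := (Nat.prime_dvd_prime_iff_eq hℓ Nat.prime_three).mp h10
          subst h11
          obtain ⟨hM3, he3⟩ := desc_three_dvd_of_sq_add_sq M e (by exact_mod_cast hd3)
          exact absurd (hMe.isUnit_of_dvd' hM3 he3) (by decide)
      · -- ℓ ∣ M
        have h7 : (ℓ : ℤ) ∣ e ^ 2 := by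
          have := hd3.sub (h6.mul_right M)
          have e1 : M ^ 2 + e ^ 2 - M * M = e ^ 2 := by ring
          rwa [e1] at this
        exact hℓ'.not_isUnit (hMe.isUnit_of_dvd' h6 (hℓ'.dvd_of_dvd_pow h7))
    · have h7 : (ℓ : ℤ) ∣ M ^ 2 := by
        have := hd3.sub (h5.mul_right e)
        have e1 : M ^ 2 + e ^ 2 - e * e = M ^ 2 := by ring
        rwa [e1] at this
      exact hℓ'.not_isUnit (hMe.isUnit_of_dvd' (hℓ'.dvd_of_dvd_pow h7) h5)
  obtain ⟨p, q, -, hpq, hsum, hcop, -, -⟩ := hpy.coprime_classification' hgcd hNo hpos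
  have hcop' : IsCoprime p q := Int.isCoprime_iff_gcd_eq_one.mpr hcop
  have hpq' : p * q = 9 * (M * e) := by linarith
  have h3 : Prime (3 : ℤ) := Int.prime_three
  have h3pq : (3 : ℤ) ∣ p * q := ⟨3 * (M * e), by rw [hpq']; ring⟩
  have h9pq : (9 : ℤ) ∣ p * q := ⟨M * e, hpq'⟩
  rcases h3.dvd_or_dvd h3pq with h3p | h3q
  · have h3q : ¬ (3 : ℤ) ∣ q := fun h3q => absurd (hcop'.isUnit_of_dvd' h3p h3q) (by decide)
    have hc9 : IsCoprime (9 : ℤ) q := by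
      have : IsCoprime (3 : ℤ) q := (h3.coprime_iff_not_dvd).mpr h3q
      have := this.pow_left (m := 2)
      norm_num at this
      exact this
    obtain ⟨p1, rfl⟩ : (9 : ℤ) ∣ p := hc9.dvd_of_dvd_mul_right h9pq
    refine desc_core M e p1 q hMe hcop'.of_mul_left_right h3q ?_ ?_ hM he hMo hee
    · have : (9 : ℤ) * (p1 * q) = 9 * (M * e) := by rw [← hpq']; ring
      exact mul_left_cancel₀ (by norm_num) this
    · rw [hsum]; ring
  · have h3p : ¬ (3 : ℤ) ∣ p := fun h3p => absurd (hcop'.isUnit_of_dvd' h3p h3q) (by decide)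
    have hc9 : IsCoprime (9 : ℤ) p := by
      have : IsCoprime (3 : ℤ) p := (h3.coprime_iff_not_dvd).mpr h3p
      have := this.pow_left (m := 2)
      norm_num at this
      exact this
    obtain ⟨q1, rfl⟩ : (9 : ℤ) ∣ q := hc9.dvd_of_dvd_mul_left h9pq
    refine desc_core M e q1 p hMe hcop'.symm.of_mul_left_right h3p ?_ ?_ hM he hMo hee
    · have : (9 : ℤ) * (q1 * p) = 9 * (M * e) := by rw [← hpq']; ring
      exact mul_left_cancel₀ (by norm_num) this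
    · rw [hsum]; ring

/-- no coprime solution with `M e ≠ 0`. -/
theorem desc_coprime : ∀ (n : ℕ) (M e N : ℤ), IsCoprime M e → M ≠ 0 → e ≠ 0 →
    (M * e).natAbs = n → M ^ 4 - 322 * M ^ 2 * e ^ 2 + e ^ 4 = N ^ 2 → False := by
  intro n
  induction n using Nat.strong_induction_on with
  | _ n ih =>
    intro M e N hMe hM he hn h
    rcases Int.emod_two_eq_zero_or_one M with hM2 | hM2 <;>
      rcases Int.emod_two_eq_zero_or_one e with he2 | he2
    · exact absurd (hMe.isUnit_of_dvd' (Int.dvd_of_emod_eq_zero hM2) (Int.dvd_of_emod_eq_zero he2))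
        (by decide)
    · -- swap
      obtain ⟨r, s, t, hrs, hr, hs, hlt, heq⟩ := desc_step e M N hMe.symm he hM he2 hM2
        (by rw [← h]; ring)
      rw [mul_comm e M, hn] at hlt
      exact ih _ hlt r s t hrs hr hs rfl heq
    · obtain ⟨r, s, t, hrs, hr, hs, hlt, heq⟩ := desc_step M e N hMe hM he hM2 he2 h
      rw [hn] at hlt
      exact ih _ hlt r s t hrs hr hs rfl heq
    · -- both odd
      obtain ⟨u, hu⟩ : ∃ u, M + e = 2 * u := ⟨(M + e) / 2, by omega⟩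
      obtain ⟨v, hv⟩ : ∃ v, M - e = 2 * v := ⟨(M - e) / 2, by omega⟩
      have hMuv : M = u + v := by omega
      have heuv : e = u - v := by omega
      subst hMuv heuv
      have huv : IsCoprime u v := by
        obtain ⟨x, y, hxy⟩ := hMe
        exact ⟨x + y, x - y, by linear_combination hxy⟩
      have hpar : (u % 2 = 0 ∧ v % 2 = 1) ∨ (u % 2 = 1 ∧ v % 2 = 0) := by omega
      have h16 : N ^ 2 = 4 ^ 2 * ((5 * v ^ 2 - 4 * u ^ 2) * (5 * u ^ 2 - 4 * v ^ 2)) := by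
        rw [← h]; ring
      have h4N : (4 : ℤ) ∣ N := by
        have : (4 : ℤ) ^ 2 ∣ N ^ 2 := ⟨_, h16⟩
        exact (Int.pow_dvd_pow_iff (by norm_num)).mp this
      obtain ⟨z, rfl⟩ := h4N
      refine desc_lemmaL u v z huv hpar ?_
      have : (4 : ℤ) ^ 2 * ((5 * v ^ 2 - 4 * u ^ 2) * (5 * u ^ 2 - 4 * v ^ 2)) = 4 ^ 2 * z ^ 2 := by
        rw [← h16]; ring
      exact mul_left_cancel₀ (by norm_num) this

theorem quartic_descent (M e N : ℤ) (h : M ^ 4 - 322 * M ^ 2 * e ^ 2 + e ^ 4 = N ^ 2) :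
    M = 0 ∨ e = 0 := by
  by_contra hcon
  push Not at hcon
  obtain ⟨hM, he⟩ := hcon
  obtain ⟨g, M', e', hg, hcop, rfl, rfl⟩ :
      ∃ g M' e' : ℤ, g ≠ 0 ∧ IsCoprime M' e' ∧ M = M' * g ∧ e = e' * g := by
    have hpos : 0 < Int.gcd M e := Int.gcd_pos_of_ne_zero_left _ hM
    obtain ⟨M', e', hcop, h1, h2⟩ := Int.exists_gcd_one hpos
    exact ⟨Int.gcd M e, M', e', by exact_mod_cast hpos.ne',
      Int.isCoprime_iff_gcd_eq_one.mpr hcop, h1, h2⟩
  have hM' : M' ≠ 0 := left_ne_zero_of_mul hM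
  have he' : e' ≠ 0 := left_ne_zero_of_mul he
  have h1 : N ^ 2 = (g ^ 2) ^ 2 * (M' ^ 4 - 322 * M' ^ 2 * e' ^ 2 + e' ^ 4) := by
    rw [← h]; ring
  have h2 : g ^ 2 ∣ N := by
    have : (g ^ 2) ^ 2 ∣ N ^ 2 := ⟨_, h1⟩
    exact (Int.pow_dvd_pow_iff (by norm_num)).mp this
  obtain ⟨N', rfl⟩ := h2
  refine desc_coprime _ M' e' N' hcop hM' he' rfl ?_
  have : (g ^ 2) ^ 2 * (M' ^ 4 - 322 * M' ^ 2 * e' ^ 2 + e' ^ 4) = (g ^ 2) ^ 2 * N' ^ 2 := by
    rw [← h1]; ring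
  exact mul_left_cancel₀ (pow_ne_zero 2 (pow_ne_zero 2 hg)) this

end Fermat.Agent.S51
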