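import Mathlib

set_option autoImplicit false
set_option linter.unusedSectionVars false

namespace Fermat.Agent.S51

variable {K : Type*} [Field K] [CharZero K]

/-- Tate normal form parametrisation of a point of order five, in terms of the tangent relations. -/
theorem tate_param (b2 b4 b6 b8 x1 x2 Y1 Y2 l m : K)
    (hb : 4 * b8 = b2 * b6 - b4 ^ 2)
    (h1 : Y1 ^ 2 = 4 * x1 ^ 3 + b2 * x1 ^ 2 + 2 * b4 * x1 + b6)
    (h3 : Y2 = -l * (x2 - x1) - Y1) (h4 : 4 * x2 = l ^ 2 - b2 - 8 * x1)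
    (h5 : 2 * l * Y1 = 12 * x1 ^ 2 + 2 * b2 * x1 + 2 * b4)
    (h6 : -Y1 = -m * (x1 - x2) - Y2) (h7 : 4 * x1 = m ^ 2 - b2 - 8 * x2)
    (hY1 : Y1 ≠ 0) (hY2 : Y2 ≠ 0) (hx : x1 ≠ x2) :
    ∃ u d : K, u ≠ 0 ∧ d ≠ 0 ∧ x2 = x1 + u ^ 2 * d ∧ Y1 = -u ^ 3 * d ∧ Y2 = u ^ 3 * d ^ 2 ∧
      b2 ^ 2 - 24 * b4 = u ^ 4 * (d ^ 4 - 12 * d ^ 3 + 14 * d ^ 2 + 12 * d + 1) ∧
      -b2 ^ 2 * b8 - 8 * b4 ^ 3 - 27 * b6 ^ 2 + 9 * b2 * b4 * b6
        = u ^ 12 * d ^ 5 * (d ^ 2 - 11 * d - 1) ∧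
      ∀ w : K, 3 * (x1 + u ^ 2 * d * w) ^ 4 + b2 * (x1 + u ^ 2 * d * w) ^ 3
          + 3 * b4 * (x1 + u ^ 2 * d * w) ^ 2 + 3 * b6 * (x1 + u ^ 2 * d * w) + b8
        = u ^ 8 * d ^ 3 * (d ^ 2 * w ^ 3 + 3 * d * w ^ 2 * (w - 1) ^ 2 + (w - 1) ^ 3) := by
  set D := x2 - x1 with hD
  have hD0 : D ≠ 0 := sub_ne_zero.2 (Ne.symm hx)
  have hl : l * D = -(Y1 + Y2) := by linear_combination h3
  have hm : m * D = Y2 - Y1 := by
    have : x1 - x2 = -D := by rw [hD]; ring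
    rw [this] at h6
    linear_combination -h6
  have hD3 : D ^ 3 = -(Y1 * Y2) := by
    have e1 : (l * D) ^ 2 - (m * D) ^ 2 = D ^ 2 * (l ^ 2 - m ^ 2) := by ring
    have e2 : l ^ 2 - m ^ 2 = -4 * D := by rw [hD]; linear_combination h7 - h4
    rw [hl, hm, e2] at e1
    have h4' : (4 : K) ≠ 0 := by norm_num
    apply mul_left_cancel₀ h4'
    linear_combination e1
  set u := -Y1 / D with hu
  set d := -Y2 / Y1 with hd
  have hu0 : u ≠ 0 := div_ne_zero (neg_ne_zero.2 hY1) hD0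
  have hd0 : d ≠ 0 := div_ne_zero (neg_ne_zero.2 hY2) hY1
  have hDu : D = u ^ 2 * d := by
    rw [hu, hd]; field_simp; linear_combination hD3
  have hY1u : Y1 = -u ^ 3 * d := by
    rw [hu, hd]; field_simp; linear_combination hD3
  have hY2u : Y2 = u ^ 3 * d ^ 2 := by
    rw [hu, hd]; field_simp; linear_combination hD3
  have hlu : l = u * (1 - d) := by
    have : l * D = u * (1 - d) * D := by
      rw [hl, hDu, hY1u, hY2u]; ring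
    exact mul_right_cancel₀ hD0 this
  have hx2 : x2 = x1 + u ^ 2 * d := by rw [← hDu, hD]; ring
  have hb2 : b2 = (u * (1 - d)) ^ 2 - 12 * x1 - 4 * (u ^ 2 * d) := by
    rw [← hlu, ← hDu, hD]; linear_combination h4
  have hb4 : b4 = u * (1 - d) * (-u ^ 3 * d) - 6 * x1 ^ 2 - b2 * x1 := by
    rw [← hlu, ← hY1u]; linear_combination -h5 / 2
  have hb6 : b6 = (-u ^ 3 * d) ^ 2 - 4 * x1 ^ 3 - b2 * x1 ^ 2 - 2 * b4 * x1 := by
    rw [← hY1u]; linear_combination -h1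
  have hb8 : b8 = (b2 * b6 - b4 ^ 2) / 4 := by linear_combination hb / 4
  refine ⟨u, d, hu0, hd0, hx2, hY1u, hY2u, ?_, ?_, ?_⟩
  · rw [hb4, hb2]; ring
  · rw [hb8, hb6, hb4, hb2]; ring
  · intro w
    rw [hb8, hb6, hb4, hb2]; ring

/-- The relation between `X` and `T`. -/
theorem rel_XT (d w : K) (hd : d ≠ 0)
    (hE : d ^ 2 * w ^ 3 + 3 * d * w ^ 2 * (w - 1) ^ 2 + (w - 1) ^ 3 = 0) :
    (w * (w - 1)) ^ 3 * (d - 1 / d) ^ 2 - 3 * (w * (w - 1)) ^ 2 * (3 * (w * (w - 1)) + 1) * (d - 1 / d)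
      + (4 * (w * (w - 1)) + 1) * (w * (w - 1) + 1) ^ 2 - 9 * (w * (w - 1)) ^ 4 = 0 := by
  have key : (w * (w - 1)) ^ 3 * (d - 1 / d) ^ 2
      - 3 * (w * (w - 1)) ^ 2 * (3 * (w * (w - 1)) + 1) * (d - 1 / d)
      + (4 * (w * (w - 1)) + 1) * (w * (w - 1) + 1) ^ 2 - 9 * (w * (w - 1)) ^ 4
      = (d ^ 2 * w ^ 3 + 3 * d * w ^ 2 * (w - 1) ^ 2 + (w - 1) ^ 3)
        * ((1 / d) ^ 2 * w ^ 3 - 3 * (1 / d) * w ^ 2 * (w - 1) ^ 2 + (w - 1) ^ 3) := by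
    field_simp
    ring
  rw [key, hE, zero_mul]

end Fermat.Agent.S51
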