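import Fermat.Agent.S51.GroupLaw
import Fermat.Agent.S51.Tate

set_option autoImplicit false
set_option linter.unusedSectionVars false

open WeierstrassCurve WeierstrassCurve.Affine WeierstrassCurve.Affine.Point

namespace Fermat.Agent.S51

variable {K : Type*} [Field K] [DecidableEq K] [CharZero K] (V : WeierstrassCurve.Affine K)

/-- All the algebraic information extracted from a point of order five. -/
theorem five_data {x1 y1 : K} (h1 : V.Nonsingular x1 y1)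
    (h5 : (5 : ℤ) • Point.some x1 y1 h1 = 0) :
    ∃ (x2 y2 : K) (h2 : V.Nonsingular x2 y2),
      Point.some x1 y1 h1 + Point.some x1 y1 h1 = Point.some x2 y2 h2 ∧
      x1 ≠ x2 ∧ f2 V x1 ≠ 0 ∧ f2 V x2 ≠ 0 ∧
      V.c₄ ^ 3 * (V.Δ / (f2 V x1 * f2 V x2))
        = V.Δ * ((V.Δ / (f2 V x1 * f2 V x2)) ^ 2 + 10 * (V.Δ / (f2 V x1 * f2 V x2)) + 5) ^ 3 ∧
      ∀ x3 : K, psi3 V x3 = 0 →
        ((x3 - x1) * (x3 - x2) / (x1 - x2) ^ 2) ^ 3 * (V.Δ / (f2 V x1 * f2 V x2) + 11) ^ 2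
          - 3 * ((x3 - x1) * (x3 - x2) / (x1 - x2) ^ 2) ^ 2
            * (3 * ((x3 - x1) * (x3 - x2) / (x1 - x2) ^ 2) + 1) * (V.Δ / (f2 V x1 * f2 V x2) + 11)
          + (4 * ((x3 - x1) * (x3 - x2) / (x1 - x2) ^ 2) + 1)
            * ((x3 - x1) * (x3 - x2) / (x1 - x2) ^ 2 + 1) ^ 2
          - 9 * ((x3 - x1) * (x3 - x2) / (x1 - x2) ^ 2) ^ 4 = 0 := by
  set P := Point.some x1 y1 h1 with hP
  have hP0 : P ≠ 0 := Point.some_ne_zero h1
  have h5' := h5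
  rw [five_smul_eq] at h5
  have hQ0 : P + P ≠ 0 := by
    intro h0
    rw [h0, zero_add, zero_add] at h5
    exact hP0 h5
  have hf : f2 V x1 ≠ 0 := by
    intro hf
    apply hQ0
    have hY : yv V x1 y1 = 0 := by
      have := yv_sq V h1.1
      rw [hf] at this
      exact pow_eq_zero_iff (two_ne_zero) |>.1 this
    exact Point.add_self_of_Y_eq ((yv_eq_zero_iff V x1 y1).1 hY)
  obtain ⟨x2, y2, h2, hd⟩ := exists_dbl V h1 hf
  rw [← hP] at hd
  rw [hd] at h5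
  have h4 : Point.some x2 y2 h2 + Point.some x2 y2 h2 = - P := eq_neg_of_add_eq_zero_left h5
  rw [hP, Point.neg_some] at h4
  obtain ⟨hY1, l, r3, r4, r5⟩ := dbl_rel V hd
  obtain ⟨hY2, m, r6, r7, -⟩ := dbl_rel V h4
  rw [yv_negY] at r6
  have hf2 : f2 V x2 ≠ 0 := (dbl_x V h4).1
  have hx12 : x1 ≠ x2 := by
    intro hxx
    -- then 2P = ±P
    rcases (Point.X_eq_iff (h₁ := h2) (h₂ := h1)).1 hxx.symm with e | e
    · rw [e, ← hP] at hd
      exact hP0 (add_eq_right.1 hd)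
    · -- 2P = -P so 3P = 0
      rw [e, ← hP] at hd
      have h3 : (3 : ℤ) • P = 0 := by
        rw [three_smul_eq, hd]; exact neg_add_cancel P
      apply hP0
      have e' : P = (2 : ℤ) • ((3 : ℤ) • P) - (5 : ℤ) • P := by
        rw [smul_smul, ← sub_smul]; norm_num
      rw [e', h5', h3]; simp
  obtain ⟨u, d, hu, hd0, ex2, eY1, eY2, ec4, eΔ, epsi⟩ :=
    tate_param V.b₂ V.b₄ V.b₆ V.b₈ x1 x2 (yv V x1 y1) (yv V x2 y2) l m V.b_relation
      (yv_sq V h1.1) r3 r4 r5 r6 r7 hY1 hY2 hx12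
  have ef1 : f2 V x1 = (-u ^ 3 * d) ^ 2 := by rw [← yv_sq V h1.1, eY1]
  have ef2 : f2 V x2 = (u ^ 3 * d ^ 2) ^ 2 := by rw [← yv_sq V h2.1, eY2]
  have hc4 : V.c₄ = u ^ 4 * (d ^ 4 - 12 * d ^ 3 + 14 * d ^ 2 + 12 * d + 1) := by
    rw [← ec4, WeierstrassCurve.c₄]
  have hΔ : V.Δ = u ^ 12 * d ^ 5 * (d ^ 2 - 11 * d - 1) := by
    rw [← eΔ, WeierstrassCurve.Δ]
  have ht : V.Δ / (f2 V x1 * f2 V x2) = d - 1 / d - 11 := by
    rw [hΔ, ef1, ef2]; field_simp; ring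
  refine ⟨x2, y2, h2, hd, hx12, hf, hf2, ?_, ?_⟩
  · rw [ht, hc4, hΔ]; field_simp; ring
  · intro x3 h3
    rw [ht]
    set w := (x3 - x1) / (u ^ 2 * d) with hw
    have hx3 : x3 = x1 + u ^ 2 * d * w := by rw [hw]; field_simp; ring
    have hX : (x3 - x1) * (x3 - x2) / (x1 - x2) ^ 2 = w * (w - 1) := by
      rw [hx3, ex2]; field_simp; ring
    rw [hX]
    have hE : d ^ 2 * w ^ 3 + 3 * d * w ^ 2 * (w - 1) ^ 2 + (w - 1) ^ 3 = 0 := by
      have := epsi w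
      rw [← hx3] at this
      rw [psi3] at h3
      rw [h3] at this
      have hne : u ^ 8 * d ^ 3 ≠ 0 := mul_ne_zero (pow_ne_zero 8 hu) (pow_ne_zero 3 hd0)
      exact (mul_eq_zero.1 this.symm).resolve_left hne
    have := rel_XT d w hd0 hE
    have e11 : d - 1 / d - 11 + 11 = d - 1 / d := by ring
    rw [e11]
    exact this

end Fermat.Agent.S51
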