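import Fermat.Statements.S51
import Fermat.Agent.S51.Five
import Fermat.Agent.S51.Exist

set_option autoImplicit false
set_option linter.unusedSectionVars false

open WeierstrassCurve WeierstrassCurve.Affine WeierstrassCurve.Affine.Point

namespace Fermat.Agent.S51

local notation "Kb" => AlgebraicClosure ℚ
local notation "Gal" => (AlgebraicClosure ℚ ≃ₐ[ℚ] AlgebraicClosure ℚ)

section abstract

variable {A : Type*} [AddCommGroup A]

theorem three_cases (P R : A) (h3 : (3 : ℤ) • P = 0) (k : ℕ) (hk : k < 3) (hR : R = k • P) :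
    R = 0 ∨ R = P ∨ R = -P := by
  have h3' : P + P + P = 0 := by rw [← h3]; abel
  interval_cases k
  · left; simpa using hR
  · right; left; simpa using hR
  · right; right
    rw [hR]
    apply eq_neg_of_add_eq_zero_left
    rw [← h3']; abel

theorem five_cases (P R : A) (h5 : (5 : ℤ) • P = 0) (k : ℕ) (hk : k < 5) (hR : R = k • P) :
    R = 0 ∨ (R = P ∧ R + R = P + P) ∨ (R = P + P ∧ R + R = -P) ∨
      (R = -(P + P) ∧ R + R = P) ∨ (R = -P ∧ R + R = -(P + P)) := by
  have h5' : P + P + P + P + P = 0 := by rw [← h5]; abel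
  interval_cases k
  · left; simpa using hR
  · right; left
    have : R = P := by simpa using hR
    exact ⟨this, by rw [this]⟩
  · right; right; left
    have : R = P + P := by rw [hR]; abel
    refine ⟨this, ?_⟩
    rw [this]
    apply eq_neg_of_add_eq_zero_left
    rw [← h5']; abel
  · right; right; right; left
    have : R = -(P + P) := by
      rw [hR]
      apply eq_neg_of_add_eq_zero_left
      rw [← h5']; abel
    refine ⟨this, ?_⟩
    rw [this]
    have e : -(P + P) + -(P + P) = P - (P + P + P + P + P) := by abel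
    rw [e, h5', sub_zero]
  · right; right; right; right
    have : R = -P := by
      rw [hR]
      apply eq_neg_of_add_eq_zero_left
      rw [← h5']; abel
    refine ⟨this, ?_⟩
    rw [this]; abel

theorem eq_zero_of_three_five (P : A) (h3 : (3 : ℤ) • P = 0) (h5 : (5 : ℤ) • P = 0) : P = 0 := by
  have e : P = (2 : ℤ) • ((3 : ℤ) • P) - (5 : ℤ) • P := by
    rw [smul_smul, ← sub_smul]; norm_num
  rw [e, h5, h3]; simp

end abstract

variable (E : WeierstrassCurve.Affine ℚ)

theorem smul_some (σ : Gal) {x y : Kb} (h : (E⁄Kb).Nonsingular x y) :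
    ∃ h' : (E⁄Kb).Nonsingular (σ x) (σ y), σ • (Point.some x y h) = Point.some (σ x) (σ y) h' :=
  ⟨_, rfl⟩

theorem f2_apply (σ : Gal) (x : Kb) : f2 (E⁄Kb) (σ x) = σ (f2 (E⁄Kb) x) := by
  simp [f2, WeierstrassCurve.baseChange, map_ofNat]

theorem Δ_apply (σ : Gal) : σ ((E⁄Kb).Δ) = (E⁄Kb).Δ := by
  simp [WeierstrassCurve.baseChange]

theorem exists_rat_of_fixed (z : Kb) (h : ∀ σ : Gal, σ z = z) : ∃ q : ℚ, algebraMap ℚ Kb q = z := by
  have h1 : Algebra.IsAlgebraic ℚ Kb := AlgebraicClosure.isAlgebraic ℚ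
  have h2 : IsAlgClosure ℚ Kb := ⟨inferInstance, h1⟩
  have h3 : IsGalois ℚ Kb := {}
  exact (InfiniteGalois.mem_range_algebraMap_iff_fixed z).2 h

end Fermat.Agent.S51
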