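import Mathlib

set_option autoImplicit false
set_option linter.unusedSectionVars false

open WeierstrassCurve WeierstrassCurve.Affine WeierstrassCurve.Affine.Point

namespace Fermat.Agent.S51

section Identities

variable {K : Type*} [Field K] [CharZero K]

theorem id_I1 (x b2 b4 b6 b8 : K) (hb : 4 * b8 = b2 * b6 - b4 ^ 2) :
    (12 * x ^ 2 + 2 * b2 * x + 2 * b4) ^ 2
      = 4 * (4 * x ^ 3 + b2 * x ^ 2 + 2 * b4 * x + b6) * (12 * x + b2)
        - 16 * (3 * x ^ 4 + b2 * x ^ 3 + 3 * b4 * x ^ 2 + 3 * b6 * x + b8) := by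
  linear_combination 4 * hb

theorem id_I2 (x b2 b4 b6 b8 F S P4 : K) (hb : 4 * b8 = b2 * b6 - b4 ^ 2)
    (hF : F = 4 * x ^ 3 + b2 * x ^ 2 + 2 * b4 * x + b6)
    (hS : S = 3 * x ^ 4 + b2 * x ^ 3 + 3 * b4 * x ^ 2 + 3 * b6 * x + b8)
    (hP : P4 = 2 * x ^ 6 + b2 * x ^ 5 + 5 * b4 * x ^ 4 + 10 * b6 * x ^ 3 + 10 * b8 * x ^ 2 +
      (b2 * b8 - b4 * b6) * x + (b4 * b8 - b6 ^ 2)) :
    4 * (x * F - S) ^ 3 + b2 * (x * F - S) ^ 2 * F + 2 * b4 * (x * F - S) * F ^ 2 + b6 * F ^ 3
      = P4 ^ 2 := by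
  have hb8 : b8 = (b2 * b6 - b4 ^ 2) / 4 := by linear_combination hb / 4
  subst hF hS hP hb8
  ring

theorem id_I3 (x b2 b4 b6 b8 F S P4 : K) (hb : 4 * b8 = b2 * b6 - b4 ^ 2)
    (hF : F = 4 * x ^ 3 + b2 * x ^ 2 + 2 * b4 * x + b6)
    (hS : S = 3 * x ^ 4 + b2 * x ^ 3 + 3 * b4 * x ^ 2 + 3 * b6 * x + b8)
    (hP : P4 = 2 * x ^ 6 + b2 * x ^ 5 + 5 * b4 * x ^ 4 + 10 * b6 * x ^ 3 + 10 * b8 * x ^ 2 +
      (b2 * b8 - b4 * b6) * x + (b4 * b8 - b6 ^ 2)) :
    3 * (x * F - S) ^ 4 + b2 * (x * F - S) ^ 3 * F + 3 * b4 * (x * F - S) ^ 2 * F ^ 2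
      + 3 * b6 * (x * F - S) * F ^ 3 + b8 * F ^ 4
      = S * (P4 * F ^ 2 - S ^ 3 - P4 ^ 2) := by
  have hb8 : b8 = (b2 * b6 - b4 ^ 2) / 4 := by linear_combination hb / 4
  subst hF hS hP hb8
  ring

end Identities

variable {K : Type*} [Field K] [DecidableEq K] (V : WeierstrassCurve.Affine K)

/-- The value of `ψ₂ = 2y + a₁x + a₃` at a point. -/
def yv (x y : K) : K := 2 * y + V.a₁ * x + V.a₃

/-- The value of `Ψ₂Sq = 4x³ + b₂x² + 2b₄x + b₆`. -/
def f2 (x : K) : K := 4 * x ^ 3 + V.b₂ * x ^ 2 + 2 * V.b₄ * x + V.b₆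

/-- The value of `Ψ₃`. -/
def psi3 (x : K) : K := 3 * x ^ 4 + V.b₂ * x ^ 3 + 3 * V.b₄ * x ^ 2 + 3 * V.b₆ * x + V.b₈

/-- The value of `preΨ₄`. -/
def pre4 (x : K) : K := 2 * x ^ 6 + V.b₂ * x ^ 5 + 5 * V.b₄ * x ^ 4 + 10 * V.b₆ * x ^ 3
  + 10 * V.b₈ * x ^ 2 + (V.b₂ * V.b₈ - V.b₄ * V.b₆) * x + (V.b₄ * V.b₈ - V.b₆ ^ 2)

/-- The value of `Ψ₅`. -/
def psi5 (x : K) : K := pre4 V x * f2 V x ^ 2 - psi3 V x ^ 3

theorem eval_Ψ₃ (x : K) : V.Ψ₃.eval x = psi3 V x := by
  simp [WeierstrassCurve.Ψ₃, psi3]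

theorem eval_preΨ'_five (x : K) : (V.preΨ' 5).eval x = psi5 V x := by
  have h := V.preΨ'_odd 0
  norm_num at h
  rw [h]
  simp [WeierstrassCurve.Ψ₃, WeierstrassCurve.preΨ₄, WeierstrassCurve.Ψ₂Sq, psi5, psi3, pre4, f2]

theorem yv_sq {x y : K} (h : V.Equation x y) : yv V x y ^ 2 = f2 V x := by
  rw [Affine.equation_iff] at h
  simp only [yv, f2, WeierstrassCurve.b₂, WeierstrassCurve.b₄, WeierstrassCurve.b₆]
  linear_combination 4 * h

theorem yv_negY (x y : K) : yv V x (V.negY x y) = - yv V x y := by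
  simp only [yv, Affine.negY]; ring

theorem yv_eq_zero_iff (x y : K) : yv V x y = 0 ↔ y = V.negY x y := by
  simp only [yv, Affine.negY]
  constructor
  · intro h; linear_combination h
  · intro h; linear_combination h

/-- Tangent-line relations for doubling. -/
theorem dbl_rel {x1 y1 x2 y2 : K} {h1 : V.Nonsingular x1 y1} {h2 : V.Nonsingular x2 y2}
    (h : Point.some x1 y1 h1 + Point.some x1 y1 h1 = Point.some x2 y2 h2) :
    yv V x1 y1 ≠ 0 ∧ ∃ l : K,
      yv V x2 y2 = -l * (x2 - x1) - yv V x1 y1 ∧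
      4 * x2 = l ^ 2 - V.b₂ - 8 * x1 ∧
      2 * l * yv V x1 y1 = 12 * x1 ^ 2 + 2 * V.b₂ * x1 + 2 * V.b₄ := by
  by_cases hy : y1 = V.negY x1 y1
  · rw [Point.add_self_of_Y_eq hy] at h
    exact absurd h.symm (Point.some_ne_zero _)
  · have hY : yv V x1 y1 ≠ 0 := fun h0 => hy ((yv_eq_zero_iff V x1 y1).1 h0)
    refine ⟨hY, ?_⟩
    rw [Point.add_self_of_Y_ne hy] at h
    injection h with hx hyy
    have hs := Affine.slope_of_Y_ne (W := V) (x₁ := x1) (x₂ := x1) (y₁ := y1) (y₂ := y1) rfl hy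
    set l0 := V.slope x1 x1 y1 y1 with hl0
    have hden : y1 - V.negY x1 y1 = yv V x1 y1 := by simp only [yv, Affine.negY]; ring
    rw [hden] at hs
    have hs' : l0 * yv V x1 y1 = 3 * x1 ^ 2 + 2 * V.a₂ * x1 + V.a₄ - V.a₁ * y1 := by
      rw [hs]; field_simp
    refine ⟨2 * l0 + V.a₁, ?_, ?_, ?_⟩
    · rw [← hyy, ← hx]
      simp only [yv, Affine.addY, Affine.negAddY, Affine.negY, Affine.addX]
      ring
    · rw [← hx]
      simp only [Affine.addX, WeierstrassCurve.b₂]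
      ring
    · simp only [WeierstrassCurve.b₂, WeierstrassCurve.b₄]
      simp only [yv] at hs' ⊢
      linear_combination 4 * hs'

theorem exists_dbl {x y : K} (h : V.Nonsingular x y) (hf : f2 V x ≠ 0) :
    ∃ (x' y' : K) (h' : V.Nonsingular x' y'),
      Point.some x y h + Point.some x y h = Point.some x' y' h' := by
  have hy : y ≠ V.negY x y := by
    intro h0
    apply hf
    rw [← yv_sq V h.1, (yv_eq_zero_iff V x y).2 h0]
    ring
  exact ⟨_, _, _, Point.add_self_of_Y_ne hy⟩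

variable [CharZero K]

theorem dbl_x {x1 y1 x2 y2 : K} {h1 : V.Nonsingular x1 y1} {h2 : V.Nonsingular x2 y2}
    (h : Point.some x1 y1 h1 + Point.some x1 y1 h1 = Point.some x2 y2 h2) :
    f2 V x1 ≠ 0 ∧ (x2 - x1) * f2 V x1 = - psi3 V x1 := by
  obtain ⟨hY, l, -, h4, h5⟩ := dbl_rel V h
  have hsq := yv_sq V h1.1
  refine ⟨by rw [← hsq]; exact pow_ne_zero 2 hY, ?_⟩
  have hI := id_I1 x1 V.b₂ V.b₄ V.b₆ V.b₈ V.b_relation
  have h16 : (16 : K) ≠ 0 := by norm_num
  apply mul_left_cancel₀ h16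
  simp only [f2, psi3] at hsq ⊢
  have e1 : (2 * l * yv V x1 y1) ^ 2 = 4 * l ^ 2 * (4 * x1 ^ 3 + V.b₂ * x1 ^ 2 + 2 * V.b₄ * x1 + V.b₆) := by
    rw [← hsq]; ring
  rw [h5, hI] at e1
  have e2 : l ^ 2 = 4 * x2 + V.b₂ + 8 * x1 := by linear_combination -h4
  rw [e2] at e1
  linear_combination -e1

theorem not_f2_psi3 {x y : K} (h : V.Nonsingular x y) (hf : f2 V x = 0) (hp : psi3 V x = 0) :
    False := by
  have hY : yv V x y = 0 := by
    have := yv_sq V h.1
    rw [hf] at this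
    exact pow_eq_zero_iff (two_ne_zero) |>.1 this
  have hI := id_I1 x V.b₂ V.b₄ V.b₆ V.b₈ V.b_relation
  simp only [f2, psi3] at hf hp
  rw [hf, hp] at hI
  have hd : 12 * x ^ 2 + 2 * V.b₂ * x + 2 * V.b₄ = 0 := by
    have : (12 * x ^ 2 + 2 * V.b₂ * x + 2 * V.b₄) ^ 2 = 0 := by rw [hI]; ring
    exact pow_eq_zero_iff (two_ne_zero) |>.1 this
  rw [Affine.nonsingular_iff] at h
  rcases h.2 with h2 | h2
  · apply h2
    simp only [yv] at hY
    simp only [WeierstrassCurve.b₂, WeierstrassCurve.b₄] at hd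
    have h4 : (4 : K) ≠ 0 := by norm_num
    apply mul_left_cancel₀ h4
    linear_combination 2 * V.a₁ * hY - hd
  · apply h2
    simp only [yv] at hY
    linear_combination hY

theorem three_smul_eq (P : V.Point) : (3 : ℤ) • P = P + P + P := by abel

theorem five_smul_eq (P : V.Point) : (5 : ℤ) • P = (P + P) + (P + P) + P := by abel

theorem three_torsion_iff {x y : K} (h : V.Nonsingular x y) :
    (3 : ℤ) • Point.some x y h = 0 ↔ psi3 V x = 0 := by
  rw [three_smul_eq]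
  constructor
  · intro h3
    have h2 : Point.some x y h + Point.some x y h = - Point.some x y h :=
      eq_neg_of_add_eq_zero_left h3
    rw [Point.neg_some] at h2
    have := (dbl_x V h2).2
    simpa using this.symm
  · intro hp
    have hf : f2 V x ≠ 0 := fun hf => not_f2_psi3 V h hf hp
    obtain ⟨x', y', h', hd⟩ := exists_dbl V h hf
    have hx := (dbl_x V hd).2
    rw [hp, _root_.neg_zero, mul_eq_zero] at hx
    have hxx : x' = x := by
      rcases hx with hx | hx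
      · exact sub_eq_zero.1 hx
      · exact absurd hx hf
    rcases (Point.X_eq_iff (h₁ := h') (h₂ := h)).1 hxx with h1 | h1
    · rw [h1] at hd
      exact absurd (add_eq_right.1 hd) (Point.some_ne_zero h)
    · rw [hd, h1]; simp

/-- relations for a double doubling -/
theorem f2_dbl {x1 x2 : K} (hx : (x2 - x1) * f2 V x1 = - psi3 V x1) :
    f2 V x2 * f2 V x1 ^ 3 = pre4 V x1 ^ 2 := by
  have hI := id_I2 x1 V.b₂ V.b₄ V.b₆ V.b₈ (f2 V x1) (psi3 V x1) (pre4 V x1) V.b_relation rfl rfl rfl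
  have e : x1 * f2 V x1 - psi3 V x1 = x2 * f2 V x1 := by linear_combination -hx
  rw [e] at hI
  rw [← hI]
  conv_lhs => rw [f2]
  ring

theorem psi3_dbl {x1 x2 : K} (hx : (x2 - x1) * f2 V x1 = - psi3 V x1) :
    psi3 V x2 * f2 V x1 ^ 4 = psi3 V x1 * (psi5 V x1 - pre4 V x1 ^ 2) := by
  have hI := id_I3 x1 V.b₂ V.b₄ V.b₆ V.b₈ (f2 V x1) (psi3 V x1) (pre4 V x1) V.b_relation rfl rfl rfl
  have e : x1 * f2 V x1 - psi3 V x1 = x2 * f2 V x1 := by linear_combination -hx
  rw [e] at hI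
  rw [psi5, ← hI]
  conv_lhs => rw [psi3]
  ring

theorem five_torsion_iff {x y : K} (h : V.Nonsingular x y) :
    (5 : ℤ) • Point.some x y h = 0 ↔ psi5 V x = 0 := by
  constructor
  · intro h5
    set P := Point.some x y h with hP
    have hP0 : P ≠ 0 := Point.some_ne_zero h
    have h5' := h5
    rw [five_smul_eq] at h5
    -- `P + P ≠ 0`
    have hQ0 : P + P ≠ 0 := by
      intro h0
      rw [h0, zero_add, zero_add] at h5
      exact hP0 h5
    have hf : f2 V x ≠ 0 := by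
      intro hf
      apply hQ0
      have hY : yv V x y = 0 := by
        have := yv_sq V h.1
        rw [hf] at this
        exact pow_eq_zero_iff (two_ne_zero) |>.1 this
      exact Point.add_self_of_Y_eq ((yv_eq_zero_iff V x y).1 hY)
    obtain ⟨x2, y2, h2, hd⟩ := exists_dbl V h hf
    rw [← hP] at hd
    rw [hd] at h5
    have h4 : Point.some x2 y2 h2 + Point.some x2 y2 h2 = - P := eq_neg_of_add_eq_zero_left h5
    rw [hP, Point.neg_some] at h4
    have hx1 := (dbl_x V hd).2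
    obtain ⟨hf2, hx2⟩ := dbl_x V h4
    have e1 := f2_dbl V hx1
    have e2 := psi3_dbl V hx1
    -- psi3 x ≠ 0
    have h3 : psi3 V x ≠ 0 := by
      intro h3
      have := (three_torsion_iff V h).2 h3
      apply hP0
      have e : P = (2 : ℤ) • ((3 : ℤ) • P) - (5 : ℤ) • P := by
        rw [smul_smul, ← sub_smul]; norm_num
      rw [e, h5', hP, this]; simp
    -- combine
    have key : psi3 V x * psi5 V x = 0 := by
      have : (x - x2) * f2 V x2 * f2 V x ^ 4 = - psi3 V x2 * f2 V x ^ 4 := by rw [hx2]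
      have e3 : (x - x2) * f2 V x2 * f2 V x ^ 4 = psi3 V x * pre4 V x ^ 2 := by
        calc (x - x2) * f2 V x2 * f2 V x ^ 4
            = - ((x2 - x) * f2 V x) * (f2 V x2 * f2 V x ^ 3) := by ring
          _ = psi3 V x * pre4 V x ^ 2 := by rw [hx1, e1]; ring
      rw [e3] at this
      linear_combination this - e2
    rcases mul_eq_zero.1 key with k | k
    · exact absurd k h3
    · exact k
  · intro hp
    set P := Point.some x y h with hP
    have hP0 : P ≠ 0 := Point.some_ne_zero h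
    have hf : f2 V x ≠ 0 := by
      intro hf
      have : psi3 V x ^ 3 = 0 := by
        have := hp
        rw [psi5, hf] at this
        linear_combination -this
      exact not_f2_psi3 V h hf (pow_eq_zero_iff (three_ne_zero) |>.1 this)
    obtain ⟨x2, y2, h2, hd⟩ := exists_dbl V h hf
    have hx1 := (dbl_x V hd).2
    have e1 := f2_dbl V hx1
    have e2 := psi3_dbl V hx1
    -- if pre4 x = 0 then contradiction
    have hpre : pre4 V x ≠ 0 := by
      intro h0
      have h3 : psi3 V x = 0 := by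
        have : psi3 V x ^ 3 = 0 := by
          have := hp
          rw [psi5, h0] at this
          linear_combination -this
        exact pow_eq_zero_iff (three_ne_zero) |>.1 this
      rw [h3, _root_.neg_zero, mul_eq_zero] at hx1
      have hxx : x2 = x := by
        rcases hx1 with hx | hx
        · exact sub_eq_zero.1 hx
        · exact absurd hx hf
      rw [hxx, h0] at e1
      have : f2 V x ^ 4 = 0 := by linear_combination e1
      exact hf (pow_eq_zero_iff (four_ne_zero) |>.1 this)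
    have hf2 : f2 V x2 ≠ 0 := by
      intro h0
      rw [h0, zero_mul] at e1
      exact hpre (pow_eq_zero_iff (two_ne_zero) |>.1 e1.symm)
    obtain ⟨x4, y4, h4, hd4⟩ := exists_dbl V h2 hf2
    have hx2 := (dbl_x V hd4).2
    have hxx : x4 = x := by
      rw [hp] at e2
      have e3 : (x - x2) * f2 V x2 * f2 V x ^ 4 = psi3 V x * pre4 V x ^ 2 := by
        calc (x - x2) * f2 V x2 * f2 V x ^ 4
            = - ((x2 - x) * f2 V x) * (f2 V x2 * f2 V x ^ 3) := by ring
          _ = psi3 V x * pre4 V x ^ 2 := by rw [hx1, e1]; ring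
      have e4 : (x4 - x2) * f2 V x2 * f2 V x ^ 4 = psi3 V x * pre4 V x ^ 2 := by
        rw [hx2]; linear_combination -e2
      have e5 : (x4 - x) * (f2 V x2 * f2 V x ^ 4) = 0 := by linear_combination e4 - e3
      rcases mul_eq_zero.1 e5 with e | e
      · exact sub_eq_zero.1 e
      · exact absurd e (mul_ne_zero hf2 (pow_ne_zero 4 hf))
    rw [five_smul_eq]
    rw [← hP] at hd
    rw [hd, hd4]
    rcases (Point.X_eq_iff (h₁ := h4) (h₂ := h)).1 hxx with h1 | h1
    · -- 4P = P so 3P = 0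
      exfalso
      have h3 : (3 : ℤ) • P = 0 := by
        have : (P + P) + (P + P) = P := by rw [hd, hd4, h1]
        rw [three_smul_eq]
        have e : P + P + P + P = P := by
          calc P + P + P + P = (P + P) + (P + P) := by abel
            _ = P := this
        exact add_eq_right.1 e
      have hp3 := (three_torsion_iff V h).1 h3
      have := hp
      rw [psi5, hp3] at this
      have h0 : pre4 V x * f2 V x ^ 2 = 0 := by linear_combination this
      exact (mul_ne_zero hpre (pow_ne_zero 2 hf)) h0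
    · rw [h1, ← hP]; exact neg_add_cancel P

end Fermat.Agent.S51
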