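import Mathlib

set_option autoImplicit false

namespace Fermat.Agent.S51

/-- Rational form of the quartic descent. -/
theorem quartic_descent_rat
    (hqd : ∀ M e N : ℤ, M ^ 4 - 322 * M ^ 2 * e ^ 2 + e ^ 4 = N ^ 2 → M = 0 ∨ e = 0)
    (ρ σ : ℚ) (h : ρ ^ 4 - 322 * ρ ^ 2 + 1 = σ ^ 2) : ρ = 0 := by
  have hden : (ρ.den : ℚ) ≠ 0 := by exact_mod_cast ρ.den_nz
  have hρ : ρ = (ρ.num : ℚ) / (ρ.den : ℚ) := (Rat.num_div_den ρ).symm
  -- `σ * den ^ 2` squares to an integer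
  have hsq : (σ * (ρ.den : ℚ) ^ 2) ^ 2 =
      ((ρ.num ^ 4 - 322 * ρ.num ^ 2 * (ρ.den : ℤ) ^ 2 + (ρ.den : ℤ) ^ 4 : ℤ) : ℚ) := by
    have h1 : ρ * (ρ.den : ℚ) = (ρ.num : ℚ) := by
      rw [eq_div_iff hden] at hρ
      exact hρ
    push_cast
    rw [← h1]
    linear_combination (-(ρ.den : ℚ) ^ 4) * h
  have hint : IsIntegral ℤ (σ * (ρ.den : ℚ) ^ 2) := by
    refine IsIntegral.of_pow (n := 2) (by norm_num) ?_
    rw [hsq]
    exact isIntegral_algebraMap (R := ℤ) (A := ℚ)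
  obtain ⟨N, hN⟩ := IsIntegrallyClosed.isIntegral_iff.mp hint
  have hN' : ((N : ℤ) : ℚ) = σ * (ρ.den : ℚ) ^ 2 := by simpa using hN
  have hZ : ρ.num ^ 4 - 322 * ρ.num ^ 2 * (ρ.den : ℤ) ^ 2 + (ρ.den : ℤ) ^ 4 = N ^ 2 := by
    have : ((ρ.num ^ 4 - 322 * ρ.num ^ 2 * (ρ.den : ℤ) ^ 2 + (ρ.den : ℤ) ^ 4 : ℤ) : ℚ) =
        ((N ^ 2 : ℤ) : ℚ) := by
      rw [← hsq, ← hN']
      push_cast
      ring
    exact_mod_cast this
  rcases hqd _ _ _ hZ with h0 | h0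
  · exact Rat.num_eq_zero.mp h0
  · exact absurd (by exact_mod_cast h0) ρ.den_nz

/-- The rational points of `X₀(15) : Y² = X (9X - 4) (4X + 1)`, with the quartic descent as a
hypothesis. -/
theorem x015_points_aux
    (hqd : ∀ M e N : ℤ, M ^ 4 - 322 * M ^ 2 * e ^ 2 + e ^ 4 = N ^ 2 → M = 0 ∨ e = 0)
    (X Y : ℚ) (h : Y ^ 2 = X * (9 * X - 4) * (4 * X + 1)) :
    X = 0 ∨ X = 4 / 9 ∨ X = -1 / 4 ∨ X = 1 ∨ X = -1 / 9 := by
  obtain ⟨x, hx⟩ : ∃ x : ℚ, x = 4 * (9 * X - 4) := ⟨_, rfl⟩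
  obtain ⟨y, hy⟩ : ∃ y : ℚ, y = 36 * Y := ⟨_, rfl⟩
  have hX : X = (x + 16) / 36 := by rw [hx]; ring
  have hxy : y ^ 2 = x * (x + 16) * (x + 25) := by
    rw [hy, hx]
    linear_combination 1296 * h
  by_cases hx0 : x = 0
  · right; left; rw [hX, hx0]; norm_num
  by_cases hx20 : x = 20
  · right; right; right; left; rw [hX, hx20]; norm_num
  have hx20' : x - 20 ≠ 0 := sub_ne_zero.mpr hx20
  have hρ := quartic_descent_rat hqd ((x + 20) * y / (x * (x - 20)))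
    ((6480 * x ^ 2 - (x - 20) ^ 4) / (x * (x - 20) ^ 2)) (by
      field_simp
      have hy4 : y ^ 4 = (x * (x + 16) * (x + 25)) ^ 2 := by
        rw [← hxy]; ring
      linear_combination ((x + 20) ^ 4) * hy4 -
        322 * (x + 20) ^ 2 * x ^ 2 * (x - 20) ^ 2 * hxy)
  rw [div_eq_zero_iff] at hρ
  rcases hρ with hρ | hρ
  · rcases mul_eq_zero.mp hρ with h1 | h1
    · right; right; right; right
      rw [hX]
      have : x = -20 := by linarith
      rw [this]; norm_num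
    · rw [h1] at hxy
      have h2 : x * (x + 16) * (x + 25) = 0 := by linarith
      rcases mul_eq_zero.mp h2 with h3 | h3
      · rcases mul_eq_zero.mp h3 with h4 | h4
        · exact absurd h4 hx0
        · left
          rw [hX, h4]; norm_num
      · right; right; left
        rw [hX]
        have : x = -25 := by linarith
        rw [this]; norm_num
  · exact absurd hρ (mul_ne_zero hx0 hx20')

end Fermat.Agent.S51
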