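import Fermat.Agent.S51.Descent
import Fermat.Agent.S51.X015Aux

/-!
The rational points of `X₀(15)`.
-/

namespace Fermat.Agent.S51

/-- The rational points of `X₀(15) : Y² = X (9X - 4) (4X + 1)`. -/
theorem x015_points (X Y : ℚ) (h : Y ^ 2 = X * (9 * X - 4) * (4 * X + 1)) :
    X = 0 ∨ X = 4 / 9 ∨ X = -1 / 4 ∨ X = 1 ∨ X = -1 / 9 :=
  x015_points_aux quartic_descent X Y h

end Fermat.Agent.S51
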